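import Mathlib

/-!
# S18, package [CA]: the regular sequence `π, s` on a normal domain (helper9)

Let `A ⊆ B` be integrally closed domains with `B` integral over `A`, `π` a prime element of `A`
and `s ∉ π A`.  Then `s` is a nonzerodivisor on `B / π B`:  `π ∣ s b` in `B` implies `π ∣ b`.

No noetherian, finiteness or dimension hypothesis, no Krull-domain property, no going-down: the
proof compares the minimal polynomials of `b`, `b' = s b / π` and `s b = π b'` over `A`.
-/

set_option autoImplicit false

open Polynomial

namespace Fermat.Agent.S18x.CA.H9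

variable {A B : Type*} [CommRing A] [IsDomain A] [IsIntegrallyClosed A]
  [CommRing B] [IsDomain B] [Algebra A B] [Module.IsTorsionFree A B] [Algebra.IsIntegral A B]

/-- The minimal polynomial of `s b` over an integrally closed domain is obtained from that of `b`
by scaling the roots (`s ≠ 0`). -/
theorem h9_minpoly_smul (s : A) (hs : s ≠ 0) (b : B) :
    minpoly A (algebraMap A B s * b) = scaleRoots (minpoly A b) s := by
  have hb : IsIntegral A b := Algebra.IsIntegral.isIntegral b
  have hc : IsIntegral A (algebraMap A B s * b) := Algebra.IsIntegral.isIntegral _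
  have hQmonic : (minpoly A b).Monic := minpoly.monic hb
  have hMmonic : (minpoly A (algebraMap A B s * b)).Monic := minpoly.monic hc
  have h1 : minpoly A (algebraMap A B s * b) ∣ scaleRoots (minpoly A b) s :=
    minpoly.isIntegrallyClosed_dvd hc (scaleRoots_aeval_eq_zero (minpoly.aeval A b))
  have h2 : aeval b ((minpoly A (algebraMap A B s * b)).comp (C s * X)) = 0 := by
    rw [aeval_comp]
    simp only [map_mul, aeval_C, aeval_X]
    exact minpoly.aeval A _
  have h3 : minpoly A b ∣ (minpoly A (algebraMap A B s * b)).comp (C s * X) :=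
    minpoly.isIntegrallyClosed_dvd hb h2
  have hdX : (C s * X : A[X]).natDegree = 1 := natDegree_C_mul_X s hs
  have hdeg : ((minpoly A (algebraMap A B s * b)).comp (C s * X)).natDegree =
      (minpoly A (algebraMap A B s * b)).natDegree := by
    rw [natDegree_comp, hdX, mul_one]
  have hne : (minpoly A (algebraMap A B s * b)).comp (C s * X) ≠ 0 := by
    intro h0
    have hcz := comp_eq_zero_iff.mp h0
    rcases hcz with hz | ⟨-, hz⟩
    · exact hMmonic.ne_zero hz
    · have hd0 := congrArg natDegree hz
      rw [hdX, natDegree_C] at hd0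
      exact one_ne_zero hd0
  have h4 : (minpoly A b).natDegree ≤ (minpoly A (algebraMap A B s * b)).natDegree := by
    have := natDegree_le_of_dvd h3 hne
    rwa [hdeg] at this
  have hsm : (scaleRoots (minpoly A b) s).Monic := (monic_scaleRoots_iff s).2 hQmonic
  exact (eq_of_monic_of_dvd_of_natDegree_le hMmonic hsm h1
    (by rw [natDegree_scaleRoots]; exact h4)).symm

variable [IsIntegrallyClosed B]

/-- **`s` is regular on `B / π B`**: if `π ∣ s b` in `B` then `π ∣ b`. -/
theorem h9_dvd_of_dvd_smul (π s : A) (hπ : Prime π) (hs : ¬ π ∣ s) (b : B)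
    (h : algebraMap A B π ∣ algebraMap A B s * b) : algebraMap A B π ∣ b := by
  obtain ⟨b', hb'⟩ := h
  have hs0 : s ≠ 0 := fun h0 => hs (h0 ▸ dvd_zero π)
  have hπ0 : π ≠ 0 := hπ.ne_zero
  have hbint : IsIntegral A b := Algebra.IsIntegral.isIntegral b
  have e1 := h9_minpoly_smul s hs0 b
  have e2 := h9_minpoly_smul π hπ0 b'
  rw [hb'] at e1
  have e3 : scaleRoots (minpoly A b) s = scaleRoots (minpoly A b') π := e1.symm.trans e2
  have hn : (minpoly A b).natDegree = (minpoly A b').natDegree := by
    have := congrArg natDegree e3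
    simpa [natDegree_scaleRoots] using this
  have hcoef : ∀ i, π ^ ((minpoly A b).natDegree - i) ∣ (minpoly A b).coeff i := by
    intro i
    have hc := congrArg (fun p => p.coeff i) e3
    simp only [coeff_scaleRoots] at hc
    rw [← hn] at hc
    exact hπ.pow_dvd_of_dvd_mul_right _ (fun hd => hs (hπ.dvd_of_dvd_pow hd))
      ⟨(minpoly A b').coeff i, by rw [hc]; ring⟩
  choose t ht using hcoef
  set n := (minpoly A b).natDegree with hndef
  -- the field of fractions of `B`
  let L := FractionRing B
  have hπL : algebraMap B L (algebraMap A B π) ≠ 0 := by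
    intro h0
    have h1 : algebraMap A B π = 0 :=
      (IsFractionRing.injective B L) (h0.trans (map_zero _).symm)
    have h2 : π = 0 :=
      (FaithfulSMul.algebraMap_injective A B) (h1.trans (map_zero _).symm)
    exact hπ0 h2
  set x : L := algebraMap B L b / algebraMap B L (algebraMap A B π) with hx
  have hxb : algebraMap B L (algebraMap A B π) * x = algebraMap B L b := by
    rw [hx, mul_comm, div_mul_cancel₀ _ hπL]
  -- `x` is integral over `B`
  have hxint : IsIntegral B x := by
    let T : B[X] := X ^ n + ∑ i ∈ Finset.range n, C (algebraMap A B (t i)) * X ^ i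
    have hTdeg : (∑ i ∈ Finset.range n, C (algebraMap A B (t i)) * X ^ i : B[X]).degree < n := by
      refine lt_of_le_of_lt (degree_sum_le _ _) ?_
      rw [Finset.sup_lt_iff (by exact WithBot.bot_lt_coe n)]
      intro i hi
      exact lt_of_le_of_lt (degree_C_mul_X_pow_le i _) (by exact_mod_cast Finset.mem_range.mp hi)
    refine ⟨T, monic_X_pow_add hTdeg, ?_⟩
    -- `π^n * T(x) = Q(b) = 0`
    have hQ : aeval b (minpoly A b) = 0 := minpoly.aeval A b
    have hQ' : algebraMap B L (aeval b (minpoly A b)) = 0 := by rw [hQ, map_zero]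
    rw [aeval_eq_sum_range, map_sum] at hQ'
    rw [Finset.sum_range_succ] at hQ'
    have hlead : (minpoly A b).coeff n = 1 := (minpoly.monic hbint).coeff_natDegree
    have hterm : ∀ i, i ≤ n → algebraMap B L (algebraMap A B π) ^ n *
        (algebraMap B L (algebraMap A B (t i)) * x ^ i) =
        algebraMap B L ((minpoly A b).coeff i • b ^ i) := by
      intro i hi
      have hpow : algebraMap B L (algebraMap A B π) ^ n =
          algebraMap B L (algebraMap A B π) ^ (n - i) *
            algebraMap B L (algebraMap A B π) ^ i := by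
        rw [← pow_add, Nat.sub_add_cancel hi]
      rw [ht i, Algebra.smul_def]
      simp only [map_mul, map_pow]
      rw [← hxb, mul_pow, hpow]
      ring
    have hkey : algebraMap B L (algebraMap A B π) ^ n * eval₂ (algebraMap B L) x T = 0 := by
      rw [← hQ']
      simp only [T, eval₂_add, eval₂_pow, eval₂_X, eval₂_finsetSum, eval₂_mul, eval₂_C]
      rw [mul_add, Finset.mul_sum, add_comm]
      congr 1
      · exact Finset.sum_congr rfl fun i hi => hterm i (Finset.mem_range.mp hi).le
      · have h1 := hterm n le_rfl
        have htn : t n = 1 := by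
          have h2 := ht n
          rw [hlead, Nat.sub_self, pow_zero, one_mul] at h2
          exact h2.symm
        rw [htn, map_one, map_one, one_mul] at h1
        exact h1
    rcases mul_eq_zero.mp hkey with h0 | h0
    · exact (pow_ne_zero n hπL h0).elim
    · exact h0
  obtain ⟨y, hy⟩ := IsIntegrallyClosed.isIntegral_iff.mp hxint
  refine ⟨y, ?_⟩
  apply IsFractionRing.injective B L
  rw [map_mul, hy, hxb]

/-- Module form of `h9_dvd_of_dvd_smul`: `s • b ∈ π • B` implies `b ∈ π • B`. -/
theorem h9_smul_regular (π s : A) (hπ : Prime π) (hs : ¬ π ∣ s) (b b' : B)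
    (h : s • b = π • b') : ∃ b'' : B, b = π • b'' := by
  have h' : algebraMap A B π ∣ algebraMap A B s * b :=
    ⟨b', by rw [← Algebra.smul_def, ← Algebra.smul_def, h]⟩
  obtain ⟨y, hy⟩ := h9_dvd_of_dvd_smul π s hπ hs b h'
  exact ⟨y, by rw [Algebra.smul_def, hy]⟩

omit [IsIntegrallyClosed A] [Algebra.IsIntegral A B] [IsIntegrallyClosed B] [IsDomain B] in
/-- `π` is a nonzerodivisor on `B` (`π ≠ 0`). -/
theorem h9_smul_eq_zero (π : A) (hπ : π ≠ 0) (b : B) (h : π • b = 0) : b = 0 := by
  rcases smul_eq_zero.mp h with h0 | h0
  · exact absurd h0 hπ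
  · exact h0

/-- **The regular sequence**: for `B` a normal domain integral over the normal domain `A`, `π` a
prime element of `A` and `s ∉ π A`, the pair `(π, s)` is a `B`-regular sequence (both halves, in
module form). -/
theorem h9_regular_sequence (π s : A) (hπ : Prime π) (hs : ¬ π ∣ s) :
    (∀ b : B, π • b = 0 → b = 0) ∧
      ∀ b b' : B, s • b = π • b' → ∃ b'' : B, b = π • b'' :=
  ⟨fun b h => h9_smul_eq_zero π hπ.ne_zero b h, fun b b' h => h9_smul_regular π s hπ hs b b' h⟩

end Fermat.Agent.S18x.CA.H9
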