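import Mathlib

/-!
# Unit discriminant ⟹ unramified (S18 blueprint, step (T2))

`A` a local ring with maximal ideal `𝔪`, `B` a finite free `A`-algebra with a basis `b` whose
discriminant is a unit. Then `B ⧸ 𝔪 B` is reduced, and every maximal ideal of `B` is
generated by `𝔪` after localisation (element form: for `x ∈ 𝔫` there is `s ∉ 𝔫` with
`s * x ∈ 𝔪 B`).

Also: in a noetherian domain an element which lies in no prime of height one is a unit
(Krull's principal ideal theorem), so "discriminant a unit in codimension one" implies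
"discriminant a unit".

Mathlib only.
-/

namespace Fermat.Agent.S18x.CA.H25

open IsLocalRing Module

section Local

variable {A B : Type*} [CommRing A] [CommRing B] [Algebra A B] [IsLocalRing A]
variable {ι : Type*} [Fintype ι] [DecidableEq ι]

attribute [local instance] Ideal.Quotient.field

/-- The discriminant of the reduction of a basis is the reduction of the discriminant. -/
theorem discr_basisQuotient [Module.Finite A B] [Module.Free A B] (b : Basis ι A B) :
    Algebra.discr (A ⧸ maximalIdeal A) (basisQuotient b)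
      = Ideal.Quotient.mk (maximalIdeal A) (Algebra.discr A b) := by
  rw [Algebra.discr_def, Algebra.discr_def, RingHom.map_det]
  congr 1
  ext i j
  simp only [Algebra.traceMatrix_apply, Algebra.traceForm_apply, basisQuotient_apply,
    RingHom.mapMatrix_apply, Matrix.map_apply, ← map_mul, Algebra.trace_quotient_mk]

/-- If the discriminant of a basis is a unit, the trace form of the special fibre is
left-separating. -/
theorem traceForm_quotient_separatingLeft [Module.Finite A B] [Module.Free A B]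
    (b : Basis ι A B) (hd : IsUnit (Algebra.discr A b))
    (x : B ⧸ Ideal.map (algebraMap A B) (maximalIdeal A))
    (hx : ∀ y, Algebra.trace (A ⧸ maximalIdeal A)
      (B ⧸ Ideal.map (algebraMap A B) (maximalIdeal A)) (x * y) = 0) : x = 0 := by
  have hne : Algebra.discr (A ⧸ maximalIdeal A) (basisQuotient b) ≠ 0 := by
    rw [discr_basisQuotient]
    exact (hd.map (Ideal.Quotient.mk (maximalIdeal A))).ne_zero
  have hnd : (Algebra.traceForm (A ⧸ maximalIdeal A)
      (B ⧸ Ideal.map (algebraMap A B) (maximalIdeal A))).Nondegenerate := by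
    refine LinearMap.BilinForm.nondegenerate_of_det_ne_zero _ (basisQuotient b) ?_
    rwa [← Algebra.traceMatrix_of_basis, ← Algebra.discr_def]
  exact hnd.1 x (fun y => by rw [Algebra.traceForm_apply]; exact hx y)

/-- **(T2a, i)** If the discriminant of a basis is a unit then `B ⧸ 𝔪 B` is reduced. -/
theorem isReduced_quotient_of_isUnit_discr (b : Basis ι A B)
    (hd : IsUnit (Algebra.discr A b)) :
    IsReduced (B ⧸ Ideal.map (algebraMap A B) (maximalIdeal A)) := by
  have : Module.Finite A B := Module.Finite.of_basis b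
  have : Module.Free A B := Module.Free.of_basis b
  refine ⟨fun x hx => traceForm_quotient_separatingLeft b hd x (fun y => ?_)⟩
  have hnil : IsNilpotent (x * y) := (Commute.all x y).isNilpotent_mul_right hx
  have hnil' : IsNilpotent (Algebra.lmul (A ⧸ maximalIdeal A)
      (B ⧸ Ideal.map (algebraMap A B) (maximalIdeal A)) (x * y)) := hnil.map _
  exact (LinearMap.isNilpotent_trace_of_isNilpotent hnil').eq_zero

/-- **(T2a, ii')** von Neumann regularity of the special fibre, element form: for every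
`x : B` there is `y : B` with `(1 - x * y) * x ∈ 𝔪 B`. -/
theorem exists_one_sub_mul_mul_mem (b : Basis ι A B) (hd : IsUnit (Algebra.discr A b))
    (x : B) : ∃ y : B, (1 - x * y) * x ∈ Ideal.map (algebraMap A B) (maximalIdeal A) := by
  have : Module.Finite A B := Module.Finite.of_basis b
  have : Module.Free A B := Module.Free.of_basis b
  have := isReduced_quotient_of_isUnit_discr b hd
  have : Module.Finite (A ⧸ maximalIdeal A)
      (B ⧸ Ideal.map (algebraMap A B) (maximalIdeal A)) :=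
    Module.Finite.of_basis (basisQuotient b)
  have : IsArtinianRing (B ⧸ Ideal.map (algebraMap A B) (maximalIdeal A)) :=
    IsArtinianRing.of_finite (A ⧸ maximalIdeal A) _
  set q := Ideal.Quotient.mk (Ideal.map (algebraMap A B) (maximalIdeal A)) with hq
  obtain ⟨n, y', hy'⟩ := IsArtinian.exists_pow_succ_smul_dvd (q x)
    (1 : B ⧸ Ideal.map (algebraMap A B) (maximalIdeal A))
  obtain ⟨y, rfl⟩ := Ideal.Quotient.mk_surjective y'
  refine ⟨y, ?_⟩
  rw [← Ideal.Quotient.eq_zero_iff_mem]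
  have h0 : q x ^ (n + 1) * (1 - q x * q y) = 0 := by
    simp only [smul_eq_mul, mul_one, Nat.succ_eq_add_one] at hy'
    have : q x ^ (n + 1) * (1 - q x * q y) = q x * (q x ^ n - q x ^ (n + 1) * q y) := by ring
    rw [this, hy', sub_self, mul_zero]
  have hnil : IsNilpotent ((1 - q x * q y) * q x) := by
    refine ⟨n + 1, ?_⟩
    rw [mul_pow, pow_succ (1 - q x * q y) n, mul_assoc,
      mul_comm (1 - q x * q y) (q x ^ (n + 1)), h0, mul_zero]
  have : q ((1 - x * y) * x) = (1 - q x * q y) * q x := by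
    simp only [map_mul, map_sub, map_one]
  rw [this]
  exact hnil.eq_zero

/-- **(T2a, ii)** If the discriminant of a basis is a unit, every proper ideal `𝔫` of `B`
(in particular every maximal ideal) is contained in `𝔪 B` after localisation at `𝔫`:
for `x ∈ 𝔫` there is `s ∉ 𝔫` with `s * x ∈ 𝔪 B`. -/
theorem exists_not_mem_mul_mem (b : Basis ι A B) (hd : IsUnit (Algebra.discr A b))
    (𝔫 : Ideal B) (h𝔫 : 𝔫 ≠ ⊤) {x : B} (hx : x ∈ 𝔫) :
    ∃ s : B, s ∉ 𝔫 ∧ s * x ∈ Ideal.map (algebraMap A B) (maximalIdeal A) := by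
  obtain ⟨y, hy⟩ := exists_one_sub_mul_mul_mem b hd x
  refine ⟨1 - x * y, fun hs => h𝔫 ?_, hy⟩
  rw [Ideal.eq_top_iff_one]
  have : (1 : B) = (1 - x * y) + x * y := by ring
  rw [this]
  exact 𝔫.add_mem hs (𝔫.mul_mem_right y hx)

/-- **(T2a, ii'')** Generators: if `𝔪 = (π, t)` and the discriminant of a basis of `B` is a
unit, then every element `x` of a proper ideal `𝔫` of `B` satisfies
`s * x = π * u + t * v` for some `s ∉ 𝔫`. -/
theorem exists_not_mem_mul_eq (b : Basis ι A B) (hd : IsUnit (Algebra.discr A b))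
    (π t : A) (hm : maximalIdeal A = Ideal.span {π, t})
    (𝔫 : Ideal B) (h𝔫 : 𝔫 ≠ ⊤) {x : B} (hx : x ∈ 𝔫) :
    ∃ s : B, s ∉ 𝔫 ∧ ∃ u v : B, s * x = algebraMap A B π * u + algebraMap A B t * v := by
  obtain ⟨s, hs, hsx⟩ := exists_not_mem_mul_mem b hd 𝔫 h𝔫 hx
  refine ⟨s, hs, ?_⟩
  rw [hm, Ideal.map_span, Set.image_pair, Ideal.mem_span_pair] at hsx
  obtain ⟨u, v, huv⟩ := hsx
  exact ⟨u, v, by rw [← huv]; ring⟩

end Local

section General

/-! ### Non-local versions: `A` any commutative ring, `𝔭` a prime / maximal ideal with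
`discr A b ∉ 𝔭`. No localisation is needed by the consumer. -/

variable {A B : Type*} [CommRing A] [CommRing B] [Algebra A B]
variable {ι : Type*} [Fintype ι] [DecidableEq ι]

omit [Fintype ι] [DecidableEq ι] in
/-- Coordinates of an element of `I B` lie in `I`. -/
theorem repr_mem_of_mem_map (b : Basis ι A B) (I : Ideal A) {w : B}
    (hw : w ∈ Ideal.map (algebraMap A B) I) (i : ι) : b.repr w i ∈ I := by
  have hw' : w ∈ (I • ⊤ : Submodule A B) := by
    rw [Ideal.smul_top_eq_map]; exact hw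
  refine Submodule.smul_induction_on hw' (fun a ha x _ => ?_) (fun x y hx hy => ?_)
  · rw [map_smul, Finsupp.smul_apply, smul_eq_mul]
    exact I.mul_mem_right _ ha
  · rw [map_add, Finsupp.add_apply]
    exact I.add_mem hx hy

omit [DecidableEq ι] in
/-- Conversely, an element all of whose coordinates lie in `I` lies in `I B`. -/
theorem mem_map_of_repr_mem (b : Basis ι A B) (I : Ideal A) {w : B}
    (hw : ∀ i, b.repr w i ∈ I) : w ∈ Ideal.map (algebraMap A B) I := by
  rw [← b.sum_repr w]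
  refine Ideal.sum_mem _ (fun i _ => ?_)
  rw [Algebra.smul_def]
  exact Ideal.mul_mem_right _ _ (Ideal.mem_map_of_mem _ (hw i))

/-- If `z ^ n ∈ 𝔭 B` then the trace of `z` lies in the prime ideal `𝔭`. -/
theorem trace_mem_of_pow_mem (b : Basis ι A B) (𝔭 : Ideal A) [𝔭.IsPrime] {z : B} {n : ℕ}
    (hz : z ^ n ∈ Ideal.map (algebraMap A B) 𝔭) : Algebra.trace A B z ∈ 𝔭 := by
  rw [Algebra.trace_eq_matrix_trace b, ← Ideal.Quotient.eq_zero_iff_mem]
  have hM : ((Algebra.leftMulMatrix b z).map (Ideal.Quotient.mk 𝔭)) ^ n = 0 := by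
    have h1 : ((Algebra.leftMulMatrix b z).map (Ideal.Quotient.mk 𝔭)) ^ n
        = ((Algebra.leftMulMatrix b z) ^ n).map (Ideal.Quotient.mk 𝔭) := by
      rw [← RingHom.mapMatrix_apply, ← RingHom.mapMatrix_apply, map_pow]
    rw [h1, ← map_pow]
    ext i j
    rw [Matrix.map_apply, Matrix.zero_apply, Ideal.Quotient.eq_zero_iff_mem,
      Algebra.leftMulMatrix_eq_repr_mul]
    exact repr_mem_of_mem_map b 𝔭 (Ideal.mul_mem_right _ _ hz) i
  have hnil : IsNilpotent ((Algebra.leftMulMatrix b z).map (Ideal.Quotient.mk 𝔭)) := ⟨n, hM⟩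
  have htr := (Matrix.isNilpotent_trace_of_isNilpotent hnil).eq_zero
  have e : (Ideal.Quotient.mk 𝔭) ((Algebra.leftMulMatrix b z).trace)
      = ((Algebra.leftMulMatrix b z).map (Ideal.Quotient.mk 𝔭)).trace := by
    simp only [Matrix.trace, Matrix.diag_apply, Matrix.map_apply, map_sum]
  rw [e, htr]

/-- The trace form is separating modulo a prime `𝔭` not containing the discriminant:
if `tr (x y) ∈ 𝔭` for all `y`, then `x ∈ 𝔭 B`. -/
theorem mem_map_of_forall_trace_mem (b : Basis ι A B) (𝔭 : Ideal A) [𝔭.IsPrime]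
    (hd : Algebra.discr A b ∉ 𝔭) {x : B} (hx : ∀ y, Algebra.trace A B (x * y) ∈ 𝔭) :
    x ∈ Ideal.map (algebraMap A B) 𝔭 := by
  refine mem_map_of_repr_mem b 𝔭 (fun i => ?_)
  set c : ι → A := fun i => b.repr x i with hc
  set T := Algebra.traceMatrix A b with hT
  have hv : ∀ j, (Matrix.vecMul c T) j ∈ 𝔭 := by
    intro j
    have : Matrix.vecMul c T j = Algebra.trace A B (x * b j) := by
      conv_rhs => rw [← b.sum_repr x, Finset.sum_mul, map_sum]
      simp only [Matrix.vecMul, dotProduct, hT, Algebra.traceMatrix_apply,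
        Algebra.traceForm_apply, hc]
      refine Finset.sum_congr rfl (fun k _ => ?_)
      rw [smul_mul_assoc, map_smul, smul_eq_mul]
    rw [this]; exact hx _
  have hadj : Matrix.vecMul (Matrix.vecMul c T) T.adjugate = Algebra.discr A b • c := by
    rw [Matrix.vecMul_vecMul, Matrix.mul_adjugate, Matrix.vecMul_smul, Matrix.vecMul_one,
      Algebra.discr_def]
  have hmem : Algebra.discr A b * c i ∈ 𝔭 := by
    have h1 : (Algebra.discr A b • c) i = Algebra.discr A b * c i := rfl
    rw [← h1, ← hadj]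
    simp only [Matrix.vecMul, dotProduct]
    exact Ideal.sum_mem _ (fun k _ => Ideal.mul_mem_right _ _ (hv k))
  exact (Ideal.IsPrime.mem_or_mem inferInstance hmem).resolve_left hd

/-- **(T2a, i, general)** `B ⧸ 𝔭 B` is reduced, element form: `x ^ n ∈ 𝔭 B → x ∈ 𝔭 B`, for a
prime `𝔭` of `A` not containing the discriminant of a basis of `B`. -/
theorem mem_map_of_pow_mem (b : Basis ι A B) (𝔭 : Ideal A) [𝔭.IsPrime]
    (hd : Algebra.discr A b ∉ 𝔭) {x : B} {n : ℕ}
    (hx : x ^ n ∈ Ideal.map (algebraMap A B) 𝔭) : x ∈ Ideal.map (algebraMap A B) 𝔭 := by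
  refine mem_map_of_forall_trace_mem b 𝔭 hd (fun y => ?_)
  refine trace_mem_of_pow_mem b 𝔭 (n := n) ?_
  rw [mul_pow]
  exact Ideal.mul_mem_right _ _ hx

/-- **(T2a, i, general)** `B ⧸ 𝔭 B` is reduced. -/
theorem isReduced_quotient_map (b : Basis ι A B) (𝔭 : Ideal A) [𝔭.IsPrime]
    (hd : Algebra.discr A b ∉ 𝔭) : IsReduced (B ⧸ Ideal.map (algebraMap A B) 𝔭) := by
  refine ⟨fun x hx => ?_⟩
  obtain ⟨x, rfl⟩ := Ideal.Quotient.mk_surjective x
  obtain ⟨n, hn⟩ := hx
  rw [← map_pow, Ideal.Quotient.eq_zero_iff_mem] at hn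
  exact Ideal.Quotient.eq_zero_iff_mem.mpr (mem_map_of_pow_mem b 𝔭 hd hn)

/-- **(T2a, ii', general)** For a maximal ideal `𝔪` of `A` not containing the discriminant:
for every `x : B` there is `y : B` with `(1 - x * y) * x ∈ 𝔪 B`. -/
theorem exists_one_sub_mul_mul_mem_map (b : Basis ι A B) (𝔪 : Ideal A) [h𝔪 : 𝔪.IsMaximal]
    (hd : Algebra.discr A b ∉ 𝔪) (x : B) :
    ∃ y : B, (1 - x * y) * x ∈ Ideal.map (algebraMap A B) 𝔪 := by
  have : Module.Finite A B := Module.Finite.of_basis b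
  let _ : Field (A ⧸ 𝔪) := Ideal.Quotient.field 𝔪
  have : Module.Finite A (B ⧸ Ideal.map (algebraMap A B) 𝔪) :=
    Module.Finite.of_surjective (Ideal.Quotient.mkₐ A _).toLinearMap
      (Ideal.Quotient.mkₐ_surjective A _)
  have : Module.Finite (A ⧸ 𝔪) (B ⧸ Ideal.map (algebraMap A B) 𝔪) :=
    Module.Finite.of_restrictScalars_finite A _ _
  have : IsArtinianRing (B ⧸ Ideal.map (algebraMap A B) 𝔪) :=
    IsArtinianRing.of_finite (A ⧸ 𝔪) _
  set q := Ideal.Quotient.mk (Ideal.map (algebraMap A B) 𝔪) with hq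
  obtain ⟨n, y', hy'⟩ := IsArtinian.exists_pow_succ_smul_dvd (q x)
    (1 : B ⧸ Ideal.map (algebraMap A B) 𝔪)
  obtain ⟨y, rfl⟩ := Ideal.Quotient.mk_surjective y'
  refine ⟨y, ?_⟩
  have h0 : q x ^ (n + 1) * (1 - q x * q y) = 0 := by
    simp only [smul_eq_mul, mul_one, Nat.succ_eq_add_one] at hy'
    have : q x ^ (n + 1) * (1 - q x * q y) = q x * (q x ^ n - q x ^ (n + 1) * q y) := by ring
    rw [this, hy', sub_self, mul_zero]
  refine mem_map_of_pow_mem b 𝔪 hd (n := n + 1) ?_
  rw [← Ideal.Quotient.eq_zero_iff_mem, map_pow, map_mul, map_sub, map_one, map_mul,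
    mul_pow, pow_succ (1 - q x * q y) n, mul_assoc, mul_comm (1 - q x * q y) (q x ^ (n + 1)),
    h0, mul_zero]

/-- **(T2a, ii, general)** For a maximal ideal `𝔪` of `A` not containing the discriminant
and a proper ideal `𝔫` of `B` (e.g. a maximal ideal above `𝔪`): for `x ∈ 𝔫` there is `s ∉ 𝔫`
with `s * x ∈ 𝔪 B`, i.e. `𝔫 B_𝔫 = 𝔪 B_𝔫`. -/
theorem exists_not_mem_mul_mem_map (b : Basis ι A B) (𝔪 : Ideal A) [𝔪.IsMaximal]
    (hd : Algebra.discr A b ∉ 𝔪) (𝔫 : Ideal B) (h𝔫 : 𝔫 ≠ ⊤) {x : B} (hx : x ∈ 𝔫) :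
    ∃ s : B, s ∉ 𝔫 ∧ s * x ∈ Ideal.map (algebraMap A B) 𝔪 := by
  obtain ⟨y, hy⟩ := exists_one_sub_mul_mul_mem_map b 𝔪 hd x
  refine ⟨1 - x * y, fun hs => h𝔫 ?_, hy⟩
  rw [Ideal.eq_top_iff_one]
  have : (1 : B) = (1 - x * y) + x * y := by ring
  rw [this]
  exact 𝔫.add_mem hs (𝔫.mul_mem_right y hx)

/-- **(T2a, ii'', general)** With generators: if `𝔪 = (π, t)` is a maximal ideal of `A` not
containing the discriminant, every element `x` of a proper ideal `𝔫` of `B` satisfies
`s * x = π u + t v` for some `s ∉ 𝔫`. -/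
theorem exists_not_mem_mul_eq_map (b : Basis ι A B) (𝔪 : Ideal A) [𝔪.IsMaximal]
    (hd : Algebra.discr A b ∉ 𝔪) (π t : A) (hm : 𝔪 = Ideal.span {π, t})
    (𝔫 : Ideal B) (h𝔫 : 𝔫 ≠ ⊤) {x : B} (hx : x ∈ 𝔫) :
    ∃ s : B, s ∉ 𝔫 ∧ ∃ u v : B, s * x = algebraMap A B π * u + algebraMap A B t * v := by
  obtain ⟨s, hs, hsx⟩ := exists_not_mem_mul_mem_map b 𝔪 hd 𝔫 h𝔫 hx
  refine ⟨s, hs, ?_⟩
  rw [hm, Ideal.map_span, Set.image_pair, Ideal.mem_span_pair] at hsx
  obtain ⟨u, v, huv⟩ := hsx
  exact ⟨u, v, by rw [← huv]; ring⟩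

end General

section BaseChange

/-! ### Discriminant and semilinear base change

`f : A → K`, `g : B → L` compatible ring homomorphisms, `b` a basis of `B / A` whose image is
a basis `b'` of `L / K`. Then `discr K b' = f (discr A b)`. In particular if `K`, `L` are
fields and `L / K` is separable then `discr A b ∉ ker f`. -/

variable {A B K L : Type*} [CommRing A] [CommRing B] [Algebra A B]
  [CommRing K] [CommRing L] [Algebra K L]
variable {ι : Type*} [Fintype ι] [DecidableEq ι]

omit [DecidableEq ι] in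
theorem repr_map_eq (f : A →+* K) (g : B →+* L)
    (hcomm : ∀ a, g (algebraMap A B a) = algebraMap K L (f a))
    (b : Basis ι A B) (b' : Basis ι K L) (hb : ∀ i, b' i = g (b i)) (y : B) (i : ι) :
    b'.repr (g y) i = f (b.repr y i) := by
  have hy : g y = ∑ k, f (b.repr y k) • b' k := by
    conv_lhs => rw [← b.sum_repr y, map_sum]
    refine Finset.sum_congr rfl (fun k _ => ?_)
    rw [Algebra.smul_def, map_mul, hcomm, hb, Algebra.smul_def]
  rw [hy]
  exact congrFun (b'.repr_sum_self _) i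

theorem leftMulMatrix_map_eq (f : A →+* K) (g : B →+* L)
    (hcomm : ∀ a, g (algebraMap A B a) = algebraMap K L (f a))
    (b : Basis ι A B) (b' : Basis ι K L) (hb : ∀ i, b' i = g (b i)) (x : B) :
    Algebra.leftMulMatrix b' (g x) = (Algebra.leftMulMatrix b x).map f := by
  ext i j
  rw [Algebra.leftMulMatrix_eq_repr_mul, Matrix.map_apply, Algebra.leftMulMatrix_eq_repr_mul,
    hb, ← map_mul, repr_map_eq f g hcomm b b' hb]

/-- The trace commutes with semilinear base change of a basis. -/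
theorem trace_map_eq (f : A →+* K) (g : B →+* L)
    (hcomm : ∀ a, g (algebraMap A B a) = algebraMap K L (f a))
    (b : Basis ι A B) (b' : Basis ι K L) (hb : ∀ i, b' i = g (b i)) (x : B) :
    Algebra.trace K L (g x) = f (Algebra.trace A B x) := by
  rw [Algebra.trace_eq_matrix_trace b', Algebra.trace_eq_matrix_trace b,
    leftMulMatrix_map_eq f g hcomm b b' hb]
  simp only [Matrix.trace, Matrix.diag_apply, Matrix.map_apply, map_sum]

/-- The discriminant commutes with semilinear base change of a basis. -/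
theorem discr_map_eq (f : A →+* K) (g : B →+* L)
    (hcomm : ∀ a, g (algebraMap A B a) = algebraMap K L (f a))
    (b : Basis ι A B) (b' : Basis ι K L) (hb : ∀ i, b' i = g (b i)) :
    Algebra.discr K b' = f (Algebra.discr A b) := by
  rw [Algebra.discr_def, Algebra.discr_def, RingHom.map_det]
  congr 1
  ext i j
  rw [RingHom.mapMatrix_apply, Matrix.map_apply, Algebra.traceMatrix_apply,
    Algebra.traceMatrix_apply, Algebra.traceForm_apply, Algebra.traceForm_apply, hb, hb,
    ← map_mul, trace_map_eq f g hcomm b b' hb]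

/-- **(T2c)** If the basis `b` of `B / A` specialises to a basis of a finite separable field
extension `L / K` along `f : A → K`, `g : B → L`, then `discr A b ∉ ker f`. -/
theorem discr_not_mem_ker_of_isSeparable {K L : Type*} [Field K] [Field L] [Algebra K L]
    [Algebra.IsSeparable K L] (f : A →+* K) (g : B →+* L)
    (hcomm : ∀ a, g (algebraMap A B a) = algebraMap K L (f a))
    (b : Basis ι A B) (b' : Basis ι K L) (hb : ∀ i, b' i = g (b i)) :
    Algebra.discr A b ∉ RingHom.ker f := by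
  intro h
  rw [RingHom.mem_ker, ← discr_map_eq f g hcomm b b' hb] at h
  have : Module.Finite K L := Module.Finite.of_basis b'
  exact Algebra.discr_not_zero_of_basis K b' h

end BaseChange

section Krull

variable {A : Type*} [CommRing A] [IsDomain A] [IsNoetherianRing A]

/-- **(T2b)** In a noetherian domain, a nonzero element lying in no prime ideal of height
one is a unit (Krull's principal ideal theorem). -/
theorem isUnit_of_forall_height_one_not_mem {d : A} (hd0 : d ≠ 0)
    (h : ∀ 𝔭 : Ideal A, 𝔭.IsPrime → 𝔭.height = 1 → d ∉ 𝔭) : IsUnit d := by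
  by_contra hd
  have hne : Ideal.span {d} ≠ ⊤ := by
    rwa [Ne, Ideal.span_singleton_eq_top]
  obtain ⟨⟨𝔭, h𝔭⟩⟩ := Ideal.nonempty_minimalPrimes hne
  have hprime : 𝔭.IsPrime := h𝔭.1.1
  have hd𝔭 : d ∈ 𝔭 := h𝔭.1.2 (Ideal.mem_span_singleton_self d)
  have hle : 𝔭.height ≤ 1 :=
    Ideal.height_le_one_of_isPrincipal_of_mem_minimalPrimes (Ideal.span {d}) 𝔭 h𝔭
  have hpos : 𝔭.height ≠ 0 := by
    intro h0
    rw [Ideal.height_eq_zero_iff_eq_bot] at h0
    rw [h0, Ideal.mem_bot] at hd𝔭
    exact hd0 hd𝔭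
  have h1 : 𝔭.height = 1 := le_antisymm hle (Order.one_le_iff_pos.mpr (pos_iff_ne_zero.mpr hpos))
  exact h 𝔭 hprime h1 hd𝔭

/-- **(T2b')** The same with "height one" spelled out: a nonzero element which lies in no
nonzero prime that is minimal among the nonzero primes is a unit. -/
theorem isUnit_of_forall_minimal_nonzero_prime_not_mem {d : A} (hd0 : d ≠ 0)
    (h : ∀ 𝔭 : Ideal A, 𝔭.IsPrime → 𝔭 ≠ ⊥ →
      (∀ 𝔮 : Ideal A, 𝔮.IsPrime → 𝔮 ≠ ⊥ → 𝔮 ≤ 𝔭 → 𝔮 = 𝔭) → d ∉ 𝔭) : IsUnit d := by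
  by_contra hd
  have hne : Ideal.span {d} ≠ ⊤ := by
    rwa [Ne, Ideal.span_singleton_eq_top]
  obtain ⟨⟨𝔭, h𝔭⟩⟩ := Ideal.nonempty_minimalPrimes hne
  have hprime : 𝔭.IsPrime := h𝔭.1.1
  have hd𝔭 : d ∈ 𝔭 := h𝔭.1.2 (Ideal.mem_span_singleton_self d)
  have hle : 𝔭.height ≤ 1 :=
    Ideal.height_le_one_of_isPrincipal_of_mem_minimalPrimes (Ideal.span {d}) 𝔭 h𝔭
  have hbot : 𝔭 ≠ ⊥ := by
    rintro rfl
    exact hd0 (by simpa using hd𝔭)
  refine h 𝔭 hprime hbot (fun 𝔮 h𝔮 h𝔮0 hle' => ?_) hd𝔭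
  by_contra hneq
  have hlt : 𝔮 < 𝔭 := lt_of_le_of_ne hle' hneq
  have h1 : 𝔮.height + 1 ≤ 𝔭.height := Ideal.height_add_one_le_of_lt_of_isPrime hlt
  have h2 : 𝔮.height = 0 := by
    have h3 : 𝔮.height + 1 ≤ 1 := h1.trans hle
    by_contra hne0
    have h4 : (1 : ℕ∞) ≤ 𝔮.height := Order.one_le_iff_pos.mpr (pos_iff_ne_zero.mpr hne0)
    have h5 : (1 : ℕ∞) + 1 ≤ 1 := le_trans (by gcongr) h3
    exact absurd h5 (by decide)
  exact h𝔮0 (Ideal.height_eq_zero_iff_eq_bot.mp h2)

end Krull

end Fermat.Agent.S18x.CA.H25
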