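import Mathlib

/-!
# S18 / [CA] (T1b): the regular sequence on a normal finite extension

`A0 ⊆ B` an integral extension of domains, `A0` and `B` integrally closed, `B` noetherian,
`π` a prime element of `A0`, `s ∉ (π)`.  Then `s` is regular on `B / π B`:
`s b ∈ π B → b ∈ π B`.  (Serre's condition S2 for normal domains, proved directly: an associated
prime of `B / π B` cannot contain a nonzero smaller prime; going-down supplies one.)
-/

set_option autoImplicit false

namespace Fermat.Agent.S18x.CA.H16

section Colon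

variable {B : Type*} [CommRing B] [IsDomain B]
variable {K : Type*} [Field K] [Algebra B K] [IsFractionRing B K]

/-- The denominator ideal `(B : y) = {a : a y ∈ B}`. -/
def denomIdeal (B : Type*) [CommRing B] {K : Type*} [Field K] [Algebra B K] (y : K) :
    Ideal B where
  carrier := {a | ∃ w : B, algebraMap B K w = algebraMap B K a * y}
  add_mem' := by
    rintro a b ⟨w, hw⟩ ⟨v, hv⟩
    exact ⟨w + v, by rw [map_add, map_add, hw, hv, add_mul]⟩
  zero_mem' := ⟨0, by simp⟩
  smul_mem' := by
    rintro c a ⟨w, hw⟩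
    exact ⟨c * w, by rw [smul_eq_mul, map_mul, map_mul, hw, mul_assoc]⟩

omit [IsDomain B] [IsFractionRing B K] in
theorem mem_denomIdeal {y : K} {a : B} :
    a ∈ denomIdeal B y ↔ ∃ w : B, algebraMap B K w = algebraMap B K a * y := Iff.rfl

omit [IsDomain B] [IsFractionRing B K] in
theorem denomIdeal_eq_top_iff {y : K} :
    denomIdeal B y = ⊤ ↔ ∃ w : B, algebraMap B K w = y := by
  rw [Ideal.eq_top_iff_one, mem_denomIdeal]
  simp

omit [IsDomain B] [IsFractionRing B K] in
theorem denomIdeal_le_mul (y : K) (c : B) :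
    denomIdeal B y ≤ denomIdeal B (algebraMap B K c * y) := by
  rintro a ⟨w, hw⟩
  exact ⟨c * w, by rw [map_mul, hw]; ring⟩

omit [IsDomain B] in
/-- If `y` maps a nonzero finitely generated ideal into itself then `y ∈ B`. -/
theorem mem_of_stable [IsNoetherianRing B] [IsIntegrallyClosed B] (y : K) (I : Ideal B)
    (hI : I ≠ ⊥)
    (h : ∀ a ∈ I, ∃ w ∈ I, algebraMap B K w = algebraMap B K a * y) :
    ∃ w : B, algebraMap B K w = y := by
  have hinj : Function.Injective (algebraMap B K) := IsFractionRing.injective B K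
  let N : Submodule B K := Submodule.map (Algebra.linearMap B K) I
  have hN : N ≠ ⊥ := by
    intro h0
    apply hI
    rw [eq_bot_iff]
    intro a ha
    have : algebraMap B K a ∈ N := ⟨a, ha, rfl⟩
    rw [h0, Submodule.mem_bot] at this
    rw [Ideal.mem_bot]
    exact hinj (by rw [this, map_zero])
  have hN' : N.FG := Submodule.FG.map _ (IsNoetherian.noetherian I)
  have hx : ∀ n ∈ N, y • n ∈ N := by
    rintro n ⟨a, ha, rfl⟩
    obtain ⟨w, hw, hwy⟩ := h a ha
    refine ⟨w, hw, ?_⟩
    rw [Algebra.linearMap_apply, Algebra.linearMap_apply, hwy, smul_eq_mul, mul_comm]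
  have hint : IsIntegral B y := isIntegral_of_smul_mem_submodule N hN hN' y hx
  exact IsIntegrallyClosed.isIntegral_iff.mp hint

omit [IsDomain B] in
/-- **Key lemma** (normal domains are S2): if the denominator ideal of `y` is a prime `P` which
strictly contains a nonzero prime `P1`, contradiction. -/
theorem false_of_denomIdeal_prime [IsNoetherianRing B] [IsIntegrallyClosed B] (y : K)
    (P P1 : Ideal B) (hP : P.IsPrime) (hP1 : P1.IsPrime) (hPy : denomIdeal B y = P)
    (hle : P1 ≤ P) (hne : P1 ≠ ⊥) (hlt : ∃ p ∈ P, p ∉ P1) : False := by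
  have hinj : Function.Injective (algebraMap B K) := IsFractionRing.injective B K
  have hynot : ¬ ∃ w : B, algebraMap B K w = y := by
    intro h
    rw [← denomIdeal_eq_top_iff, hPy] at h
    exact hP.ne_top h
  have hPne : P ≠ ⊥ := by
    intro h0
    apply hne
    rw [eq_bot_iff]
    exact hle.trans_eq h0
  by_cases hcase : ∀ a ∈ P, ∃ w ∈ P, algebraMap B K w = algebraMap B K a * y
  · exact hynot (mem_of_stable y P hPne hcase)
  · push Not at hcase
    obtain ⟨p0, hp0, hp0y⟩ := hcase
    obtain ⟨p1, hp1, hp1n⟩ := hlt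
    -- the value `u0 = p0 y ∈ B \ P`
    have hval : ∀ a ∈ P, ∃ w : B, algebraMap B K w = algebraMap B K a * y := by
      intro a ha
      rw [← hPy] at ha
      exact ha
    -- find `q ∈ P \ P1` with `q y ∉ P`
    have hq : ∃ q ∈ P, q ∉ P1 ∧ ∃ u : B, u ∉ P ∧ algebraMap B K u = algebraMap B K q * y := by
      obtain ⟨u0, hu0⟩ := hval p0 hp0
      have hu0P : u0 ∉ P := fun h => hp0y u0 h hu0
      by_cases hp0P1 : p0 ∈ P1
      · obtain ⟨u1, hu1⟩ := hval p1 hp1
        by_cases hu1P : u1 ∈ P
        · refine ⟨p0 + p1, P.add_mem hp0 hp1, ?_, u0 + u1, ?_, ?_⟩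
          · intro h
            exact hp1n (by simpa using P1.sub_mem h hp0P1)
          · intro h
            exact hu0P (by simpa using P.sub_mem h hu1P)
          · rw [map_add, map_add, hu0, hu1, add_mul]
        · exact ⟨p1, hp1, hp1n, u1, hu1P, hu1⟩
      · exact ⟨p0, hp0, hp0P1, u0, hu0P, hu0⟩
    obtain ⟨q, hqP, hqP1, u, huP, huq⟩ := hq
    apply hynot
    apply mem_of_stable y P1 hne
    intro a ha
    obtain ⟨w, hw⟩ := hval a (hle ha)
    refine ⟨w, ?_, hw⟩
    -- `q w = a u ∈ P1`, `q ∉ P1`
    have h1 : q * w = a * u := by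
      apply hinj
      rw [map_mul, map_mul, hw, huq]
      ring
    have h2 : q * w ∈ P1 := by
      rw [h1]
      exact P1.mul_mem_right _ ha
    rcases hP1.mem_or_mem h2 with h3 | h3
    · exact absurd h3 hqP1
    · exact h3

omit [IsDomain B] [IsFractionRing B K] in
/-- In a noetherian domain, if `y ∉ B` there is `c` with `c y ∉ B` whose denominator ideal is
prime (an associated prime of `(B + B y) / B`). -/
theorem exists_denomIdeal_prime [IsNoetherianRing B] (y : K)
    (hy : ¬ ∃ w : B, algebraMap B K w = y) :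
    ∃ c : B, (denomIdeal B (algebraMap B K c * y)).IsPrime := by
  let S : Set (Ideal B) := {I | ∃ c : B, I = denomIdeal B (algebraMap B K c * y) ∧ I ≠ ⊤}
  have hS : S.Nonempty := by
    refine ⟨denomIdeal B (algebraMap B K 1 * y), 1, rfl, ?_⟩
    rw [map_one, one_mul, Ne, denomIdeal_eq_top_iff]
    exact hy
  obtain ⟨I, ⟨c, rfl, hctop⟩, hmax⟩ :=
    (set_has_maximal_iff_noetherian (R := B) (M := B)).mpr inferInstance S hS
  refine ⟨c, ⟨hctop, ?_⟩⟩
  intro a b hab
  by_contra hcon
  push Not at hcon
  obtain ⟨ha, hb⟩ := hcon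
  -- the ideal for `a c`
  have hle : denomIdeal B (algebraMap B K c * y) ≤
      denomIdeal B (algebraMap B K (a * c) * y) := by
    have := denomIdeal_le_mul (algebraMap B K c * y) a
    rwa [← mul_assoc, ← map_mul] at this
  have hbmem : b ∈ denomIdeal B (algebraMap B K (a * c) * y) := by
    obtain ⟨w, hw⟩ := hab
    exact ⟨w, by rw [hw]; simp only [map_mul]; ring⟩
  have hne_top : denomIdeal B (algebraMap B K (a * c) * y) ≠ ⊤ := by
    intro htop
    rw [denomIdeal_eq_top_iff] at htop
    obtain ⟨w, hw⟩ := htop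
    exact ha ⟨w, by rw [hw, map_mul]; ring⟩
  have hlt : denomIdeal B (algebraMap B K c * y) <
      denomIdeal B (algebraMap B K (a * c) * y) :=
    lt_of_le_of_ne hle (fun h => hb (h ▸ hbmem))
  exact hmax _ ⟨a * c, rfl, hne_top⟩ hlt

end Colon

section Main

variable {A0 B : Type*} [CommRing A0] [IsDomain A0] [IsIntegrallyClosed A0]
variable [CommRing B] [IsDomain B] [IsNoetherianRing B] [IsIntegrallyClosed B]
variable [Algebra A0 B] [FaithfulSMul A0 B] [Algebra.IsIntegral A0 B]

omit [IsDomain A0] in
/-- **(T1b)** `π, s` is a regular sequence on the normal domain `B` (second half: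
`s b ∈ π B → b ∈ π B`). -/
theorem smul_mem_of_normal (π s : A0) (hπ : Prime π) (hs : s ∉ Ideal.span {π}) (b x : B)
    (h : s • b = π • x) : ∃ b' : B, b = π • b' := by
  classical
  let K := FractionRing B
  have hinjK : Function.Injective (algebraMap B K) := IsFractionRing.injective B K
  have hinjA : Function.Injective (algebraMap A0 B) := FaithfulSMul.algebraMap_injective A0 B
  set πB : B := algebraMap A0 B π with hπB
  set sB : B := algebraMap A0 B s with hsB
  have hπB0 : πB ≠ 0 := by
    intro h0
    exact hπ.ne_zero (hinjA (by rw [← hπB, h0, map_zero]))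
  have hπK0 : algebraMap B K πB ≠ 0 := by
    intro h0
    exact hπB0 (hinjK (by rw [h0, map_zero]))
  have h' : sB * b = πB * x := by
    rw [hsB, hπB, ← Algebra.smul_def, ← Algebra.smul_def]
    exact h
  let y : K := algebraMap B K b / algebraMap B K πB
  have hyπ : algebraMap B K πB * y = algebraMap B K b := mul_div_cancel₀ _ hπK0
  by_contra hcon
  have hy : ¬ ∃ w : B, algebraMap B K w = y := by
    rintro ⟨w, hw⟩
    apply hcon
    refine ⟨w, ?_⟩
    apply hinjK
    rw [Algebra.smul_def, map_mul, hw]
    exact hyπ.symm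
  obtain ⟨c, hc⟩ := exists_denomIdeal_prime y hy
  set P : Ideal B := denomIdeal B (algebraMap B K c * y) with hP
  have hπP : πB ∈ P := by
    apply denomIdeal_le_mul y c
    exact ⟨b, hyπ.symm⟩
  have hsP : sB ∈ P := by
    apply denomIdeal_le_mul y c
    refine ⟨x, ?_⟩
    have h1 : algebraMap B K sB * algebraMap B K b = algebraMap B K πB * algebraMap B K x := by
      rw [← map_mul, ← map_mul, h']
    apply mul_left_cancel₀ hπK0
    rw [← h1, ← hyπ]
    ring
  -- going down
  have : P.IsPrime := hc
  have hpp : (Ideal.span {π} : Ideal A0).IsPrime :=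
    (Ideal.span_singleton_prime hπ.ne_zero).mpr hπ
  have : (P.under A0).IsPrime := Ideal.IsPrime.under A0 P
  have : P.LiesOver (P.under A0) := ⟨rfl⟩
  have hle : (Ideal.span {π} : Ideal A0) ≤ P.under A0 := by
    rw [Ideal.span_le]
    intro z hz
    rw [Set.mem_singleton_iff] at hz
    subst hz
    exact hπP
  obtain ⟨P1, hP1le, hP1prime, hP1over⟩ :=
    Ideal.exists_ideal_le_liesOver_of_le (p := Ideal.span {π}) (q := P.under A0) P hle
  have hπP1 : πB ∈ P1 := by
    have : π ∈ P1.under A0 := by
      rw [← hP1over.over]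
      exact Ideal.mem_span_singleton_self π
    exact this
  have hsP1 : sB ∉ P1 := by
    intro hmem
    apply hs
    rw [hP1over.over]
    exact hmem
  exact false_of_denomIdeal_prime (algebraMap B K c * y) P P1 hc hP1prime rfl hP1le
    (fun h0 => hπB0 (by rw [h0] at hπP1; exact (Ideal.mem_bot.mp hπP1)))
    ⟨sB, hsP, hsP1⟩

end Main

end Fermat.Agent.S18x.CA.H16
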