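import Fermat.Agent.S18x.CA.H16_Free
import Fermat.Agent.S18x.CA.H16_Normal

/-!
# S18 / [CA] (T1): a normal domain finite over a two-dimensional regular local ring is free

`A0` a noetherian integrally closed local domain with maximal ideal `(π, s)`, `π` prime,
`s ∉ (π)`; `B` an integrally closed domain, finite over `A0` (with `A0 → B` injective).
Then `B` is a free `A0`-module.
-/

set_option autoImplicit false

namespace Fermat.Agent.S18x.CA.H16

open IsLocalRing

/-- **(T1)** normal + finite over a regular local ring of dimension two `⟹` free. -/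
theorem free_of_normal_of_finite {A0 B : Type*} [CommRing A0] [IsDomain A0] [IsLocalRing A0]
    [IsNoetherianRing A0] [IsIntegrallyClosed A0] [CommRing B] [IsDomain B]
    [IsIntegrallyClosed B] [Algebra A0 B] [FaithfulSMul A0 B] [Module.Finite A0 B]
    (π s : A0) (hm : maximalIdeal A0 = Ideal.span {π, s}) (hπ : Prime π)
    (hs : s ∉ Ideal.span {π}) : Module.Free A0 B := by
  have hnoeth : IsNoetherianRing B := IsNoetherianRing.of_finite A0 B
  have hint : Algebra.IsIntegral A0 B := Algebra.IsIntegral.of_finite A0 B
  have hinjA : Function.Injective (algebraMap A0 B) := FaithfulSMul.algebraMap_injective A0 B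
  refine free_of_regular_pair π s hm ?_ ?_
  · intro m hm0
    rw [Algebra.smul_def] at hm0
    rcases mul_eq_zero.mp hm0 with h | h
    · exact absurd (hinjA (by rw [h, map_zero])) hπ.ne_zero
    · exact h
  · intro m m' h
    exact smul_mem_of_normal π s hπ hs m m' h

/-- **(T1c)** the same with an explicit finite basis (so that discriminants make sense). -/
theorem exists_basis_of_normal_of_finite {A0 B : Type*} [CommRing A0] [IsDomain A0]
    [IsLocalRing A0] [IsNoetherianRing A0] [IsIntegrallyClosed A0] [CommRing B] [IsDomain B]
    [IsIntegrallyClosed B] [Algebra A0 B] [FaithfulSMul A0 B] [Module.Finite A0 B]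
    (π s : A0) (hm : maximalIdeal A0 = Ideal.span {π, s}) (hπ : Prime π)
    (hs : s ∉ Ideal.span {π}) : ∃ n : ℕ, Nonempty (Module.Basis (Fin n) A0 B) := by
  have hfree : Module.Free A0 B := free_of_normal_of_finite π s hm hπ hs
  exact ⟨_, ⟨Module.finBasis A0 B⟩⟩

end Fermat.Agent.S18x.CA.H16
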