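import Mathlib
import Fermat.Agent.S18x.CA.H25_Disc

/-!
# Discriminants and fibres (S18 blueprint, bridges (T2d), (T2d'), (T2e))

`B` a free `A`-algebra with basis `b`, `f : A → K` a ring homomorphism to a field `K` which is
the fraction field of its image (so `K` is the residue field of the prime `ker f`).

* `discr_ne_zero_of_separable_fibre` (T2d'): if `g : B → L` is a compatible ring homomorphism
  to a field with `ker g ⊆ (ker f) B` (i.e. `(ker f) B` is prime with residue field inside `L`)
  and every `g x` is separable over `K`, then `discr A b ∉ ker f`.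
* `discr_ne_zero_of_reduced_fibre` (T2e): if `K` has characteristic zero and the fibre of `B`
  over `ker f` is reduced, then `discr A b ∉ ker f`.

Mathlib + `H25_Disc` only.
-/

namespace Fermat.Agent.S18x.CA.H25F

open Module Fermat.Agent.S18x.CA.H25

section Reduced

variable {κ C : Type*} [Field κ] [CharZero κ] [CommRing C] [Algebra κ C]
  [Module.Finite κ C] [IsReduced C]

/-- In characteristic zero the trace form of a reduced finite-dimensional commutative algebra
is separating: a nonzero ideal of a reduced artinian ring contains a nonzero idempotent `e`,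
and the trace of `e` is the dimension of `e C`. -/
theorem eq_zero_of_forall_trace_mul_eq_zero (x : C)
    (hx : ∀ y : C, Algebra.trace κ C (x * y) = 0) : x = 0 := by
  have hart : IsArtinianRing C := IsArtinianRing.of_finite κ C
  have hss : IsSemisimpleRing C := IsArtinianRing.isSemisimpleRing_of_isReduced C
  obtain ⟨J, hJ⟩ := exists_isCompl (Ideal.span {x} : Ideal C)
  have h1 : (1 : C) ∈ (Ideal.span {x} : Ideal C) ⊔ J := by
    rw [hJ.sup_eq_top]; exact Submodule.mem_top
  obtain ⟨e, he, e', he', hee'⟩ := Submodule.mem_sup.mp h1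
  obtain ⟨c, rfl⟩ := Ideal.mem_span_singleton'.mp he
  have hdisj : ∀ z : C, z ∈ (Ideal.span {x} : Ideal C) → z ∈ J → z = 0 := by
    intro z hz1 hz2
    have : z ∈ (Ideal.span {x} : Ideal C) ⊓ J := ⟨hz1, hz2⟩
    rw [hJ.inf_eq_bot] at this
    simpa using this
  have hxe' : x * e' = 0 :=
    hdisj _ (Ideal.mul_mem_right _ _ (Ideal.mem_span_singleton_self x)) (Ideal.mul_mem_left _ _ he')
  have hxe : x * (c * x) = x := by
    have : x * (c * x) + x * e' = x := by rw [← mul_add, hee', mul_one]
    rwa [hxe', add_zero] at this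
  have hidem : IsIdempotentElem (Algebra.lmul κ C (c * x)) := by
    have h2 : (c * x) * (c * x) = c * x := by
      calc (c * x) * (c * x) = c * (x * (c * x)) := by ring
        _ = c * x := by rw [hxe]
    change Algebra.lmul κ C (c * x) * Algebra.lmul κ C (c * x) = Algebra.lmul κ C (c * x)
    rw [← map_mul, h2]
  have htr : LinearMap.trace κ C (Algebra.lmul κ C (c * x)) = 0 := by
    have := hx c
    rwa [mul_comm, Algebra.trace_apply] at this
  have h0 : Algebra.lmul κ C (c * x) = 0 :=
    LinearMap.IsIdempotentElem.eq_zero_of_trace_eq_zero hidem htr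
  have h3 : c * x = 0 := by
    have := congrArg (fun f : C →ₗ[κ] C => f 1) h0
    simpa using this
  rw [← hxe, h3, mul_zero]

/-- In characteristic zero the discriminant of any basis of a reduced finite-dimensional
commutative algebra is nonzero. -/
theorem discr_ne_zero_of_isReduced {ι : Type*} [Fintype ι] [DecidableEq ι] (b : Basis ι κ C) :
    Algebra.discr κ b ≠ 0 := by
  rw [Algebra.discr_def, Algebra.traceMatrix_of_basis,
    ← LinearMap.BilinForm.nondegenerate_iff_det_ne_zero]
  refine ⟨fun x hx => ?_, fun x hx => ?_⟩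
  · exact eq_zero_of_forall_trace_mul_eq_zero x (fun y => by
      have := hx y
      rwa [Algebra.traceForm_apply] at this)
  · exact eq_zero_of_forall_trace_mul_eq_zero x (fun y => by
      have := hx y
      rwa [Algebra.traceForm_apply, mul_comm] at this)

end Reduced

section Denominators

variable {A K : Type*} [CommRing A] [Field K] (f : A →+* K)

/-- Common denominators: if every element of `K` is a quotient of values of `f`, then finitely
many elements of `K` have a common denominator. -/
theorem exists_common_denom (hK : ∀ c : K, ∃ a s : A, f s ≠ 0 ∧ c * f s = f a)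
    {ι : Type*} [Fintype ι] (c : ι → K) :
    ∃ (s : A) (a : ι → A), f s ≠ 0 ∧ ∀ i, c i * f s = f (a i) := by
  classical
  choose a s hs has using hK
  refine ⟨∏ i, s (c i), fun i => a (c i) * ∏ j ∈ Finset.univ.erase i, s (c j), ?_, fun i => ?_⟩
  · rw [map_prod]
    exact Finset.prod_ne_zero_iff.mpr (fun i _ => hs (c i))
  · rw [← Finset.mul_prod_erase Finset.univ (fun j => s (c j)) (Finset.mem_univ i), map_mul,
      map_mul, ← mul_assoc, has]

end Denominators

section ReducedFibre

variable {A B : Type*} [CommRing A] [CommRing B] [Algebra A B]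
variable {ι : Type*} [Fintype ι] [DecidableEq ι]

/-- **(T2e)** `B` free over `A` with basis `b`, `f : A → κ` a ring homomorphism to a field of
characteristic zero which is the fraction field of its image. If the fibre of `B` over
`ker f` is reduced (element form), then the discriminant of `b` does not lie in `ker f`. -/
theorem discr_ne_zero_of_reduced_fibre (b : Basis ι A B)
    {κ : Type*} [Field κ] [CharZero κ] (f : A →+* κ)
    (hK : ∀ c : κ, ∃ a s : A, f s ≠ 0 ∧ c * f s = f a)
    (hred : ∀ x : B, x * x ∈ Ideal.map (algebraMap A B) (RingHom.ker f) →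
      ∃ s : A, f s ≠ 0 ∧ algebraMap A B s * x ∈ Ideal.map (algebraMap A B) (RingHom.ker f)) :
    f (Algebra.discr A b) ≠ 0 := by
  let _ : Algebra A κ := f.toAlgebra
  let C := TensorProduct A κ B
  let b' : Basis ι κ C := Algebra.TensorProduct.basis κ b
  let g : B →+* C := (Algebra.TensorProduct.includeRight : B →ₐ[A] C).toRingHom
  have hg_apply : ∀ y : B, g y = (1 : κ) ⊗ₜ[A] y := fun y => rfl
  have hcomm : ∀ a, g (algebraMap A B a) = algebraMap κ C (f a) := by
    intro a
    change (Algebra.TensorProduct.includeRight : B →ₐ[A] C) (algebraMap A B a) = _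
    rw [AlgHom.commutes, IsScalarTower.algebraMap_apply A κ C]
    rfl
  have hb : ∀ i, b' i = g (b i) := fun i => by
    rw [hg_apply]; exact Algebra.TensorProduct.basis_apply b i
  -- `g` kills `(ker f) B`
  have hgker : ∀ w : B, w ∈ Ideal.map (algebraMap A B) (RingHom.ker f) → g w = 0 := by
    intro w hw
    have h1 : Ideal.map (algebraMap A B) (RingHom.ker f) ≤ RingHom.ker g := by
      rw [Ideal.map_le_iff_le_comap]
      intro a ha
      rw [Ideal.mem_comap, RingHom.mem_ker, hcomm, (RingHom.mem_ker).mp ha, map_zero]
    exact (RingHom.mem_ker).mp (h1 hw)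
  -- conversely
  have hgker' : ∀ w : B, g w = 0 → w ∈ Ideal.map (algebraMap A B) (RingHom.ker f) := by
    intro w hw
    refine mem_map_of_repr_mem b _ (fun i => ?_)
    rw [RingHom.mem_ker, ← repr_map_eq f g hcomm b b' hb w i, hw, map_zero, Finsupp.zero_apply]
  -- every element of `C` is `g w / f s`
  have hfrac : ∀ z : C, ∃ (s : A) (w : B), f s ≠ 0 ∧ f s • z = g w := by
    intro z
    obtain ⟨s, a, hs, ha⟩ := exists_common_denom f hK (fun i => b'.repr z i)
    refine ⟨s, ∑ i, a i • b i, hs, ?_⟩
    conv_lhs => rw [← b'.sum_repr z, Finset.smul_sum]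
    rw [map_sum]
    refine Finset.sum_congr rfl (fun i _ => ?_)
    rw [smul_smul, mul_comm, ha i, Algebra.smul_def (a i) (b i), map_mul, hcomm, hb,
      Algebra.smul_def]
  have hredC : IsReduced C := by
    rw [isReduced_iff_pow_one_lt 2 one_lt_two]
    intro z hz
    obtain ⟨s, w, hs, hw⟩ := hfrac z
    have h1 : g (w * w) = 0 := by
      rw [map_mul, ← hw, smul_mul_smul_comm, ← pow_two z, hz, smul_zero]
    obtain ⟨s', hs', hs'w⟩ := hred w (hgker' _ h1)
    have h2 : f s' • g w = 0 := by
      have := hgker _ hs'w
      rwa [map_mul, hcomm, ← Algebra.smul_def] at this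
    have h3 : g w = 0 := (smul_eq_zero.mp h2).resolve_left hs'
    rw [h3] at hw
    exact (smul_eq_zero.mp hw).resolve_left hs
  have hfin : Module.Finite κ C := Module.Finite.of_basis b'
  rw [← discr_map_eq f g hcomm b b' hb]
  exact discr_ne_zero_of_isReduced b'

end ReducedFibre

section SeparableFibre

variable {A B : Type*} [CommRing A] [CommRing B] [Algebra A B]
variable {ι : Type*} [Fintype ι]
variable {K L : Type*} [Field K] [Field L] [Algebra K L]

/-- **(T2d), independence.** If `ker g ⊆ (ker f) B` then the image of an `A`-basis of `B` is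
linearly independent over `K = Frac (f A)`. -/
theorem linearIndependent_fibre (b : Basis ι A B) (f : A →+* K) (g : B →+* L)
    (hcomm : ∀ a, g (algebraMap A B a) = algebraMap K L (f a))
    (hK : ∀ c : K, ∃ a s : A, f s ≠ 0 ∧ c * f s = f a)
    (hg : ∀ x : B, g x = 0 → x ∈ Ideal.map (algebraMap A B) (RingHom.ker f)) :
    LinearIndependent K (fun i => g (b i)) := by
  classical
  rw [Fintype.linearIndependent_iff]
  intro c hc i
  obtain ⟨s, a, hs, ha⟩ := exists_common_denom f hK c
  have h1 : g (∑ j, a j • b j) = 0 := by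
    rw [map_sum]
    have h2 : ∀ j, g (a j • b j) = f s • (c j • g (b j)) := by
      intro j
      rw [Algebra.smul_def, map_mul, hcomm, ← ha j, smul_smul, mul_comm (f s), Algebra.smul_def]
    simp only [h2]
    rw [← Finset.smul_sum, hc, smul_zero]
  have h3 := repr_mem_of_mem_map b _ (hg _ h1) i
  rw [b.repr_sum_self, RingHom.mem_ker, ← ha i] at h3
  exact (mul_eq_zero.mp h3).resolve_right hs

/-- **(T2d), span.** The `K`-span of the image of a basis is closed under multiplication and
inverses (it is the subfield `K · g(B)` of `L`). -/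
theorem exists_intermediateField_fibre (b : Basis ι A B) (f : A →+* K) (g : B →+* L)
    (hcomm : ∀ a, g (algebraMap A B a) = algebraMap K L (f a)) :
    ∃ E : IntermediateField K L, (∀ x : B, g x ∈ E) ∧
      ∀ y ∈ E, y ∈ Submodule.span K (Set.range fun i => g (b i)) := by
  classical
  let _ : Algebra A K := f.toAlgebra
  let _ : Algebra A L := ((algebraMap K L).comp f).toAlgebra
  have hst : IsScalarTower A K L := IsScalarTower.of_algebraMap_eq (fun _ => rfl)
  let gA : B →ₐ[A] L := { g with commutes' := fun a => hcomm a }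
  let φ : TensorProduct A K B →ₐ[K] L :=
    Algebra.TensorProduct.lift (Algebra.ofId K L) gA (fun _ _ => Commute.all _ _)
  have hφ : ∀ (c : K) (x : B), φ (c ⊗ₜ[A] x) = algebraMap K L c * g x := fun c x => by
    simp [φ, gA, Algebra.ofId_apply]
  let b' : Basis ι K (TensorProduct A K B) := Algebra.TensorProduct.basis K b
  have hfin : Module.Finite K (TensorProduct A K B) := Module.Finite.of_basis b'
  have hinv : ∀ y ∈ φ.range, y⁻¹ ∈ φ.range := by
    rintro y ⟨z, rfl⟩
    have halg : IsAlgebraic K (φ z) :=
      ((Algebra.IsIntegral.isIntegral (R := K) z).map φ).isAlgebraic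
    exact Subalgebra.inv_mem_of_algebraic (A := φ.range) (x := ⟨φ z, z, rfl⟩) halg
  refine ⟨Subalgebra.toIntermediateField φ.range hinv, fun x => ⟨1 ⊗ₜ x, ?_⟩, ?_⟩
  · change φ (1 ⊗ₜ[A] x) = g x
    rw [hφ, map_one, one_mul]
  · rintro y ⟨z, rfl⟩
    change φ z ∈ _
    rw [← b'.sum_repr z, map_sum]
    refine Submodule.sum_mem _ (fun i _ => ?_)
    rw [map_smul]
    refine Submodule.smul_mem _ _ (Submodule.subset_span ⟨i, ?_⟩)
    change g (b i) = φ (b' i)
    rw [Algebra.TensorProduct.basis_apply, hφ, map_one, one_mul]

/-- **(T2d')** `B` free over `A` with basis `b`; `f : A → K`, `g : B → L` compatible ring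
homomorphisms to fields, `K = Frac (f A)`, `ker g ⊆ (ker f) B` and every `g x` separable
over `K`. Then the discriminant of `b` does not lie in `ker f`. -/
theorem discr_ne_zero_of_separable_fibre [DecidableEq ι] (b : Basis ι A B)
    (f : A →+* K) (g : B →+* L)
    (hcomm : ∀ a, g (algebraMap A B a) = algebraMap K L (f a))
    (hK : ∀ c : K, ∃ a s : A, f s ≠ 0 ∧ c * f s = f a)
    (hg : ∀ x : B, g x = 0 → x ∈ Ideal.map (algebraMap A B) (RingHom.ker f))
    (hsep : ∀ x : B, IsSeparable K (g x)) :
    f (Algebra.discr A b) ≠ 0 := by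
  obtain ⟨E, hE1, hE2⟩ := exists_intermediateField_fibre b f g hcomm
  let g₀ : B →+* E := g.codRestrict E hE1
  have hg₀ : ∀ x, ((g₀ x : E) : L) = g x := fun x => rfl
  have hcomm₀ : ∀ a, g₀ (algebraMap A B a) = algebraMap K E (f a) := by
    intro a
    apply Subtype.ext
    rw [hg₀, hcomm]
    rfl
  have hli : LinearIndependent K (fun i => g₀ (b i)) := by
    refine LinearIndependent.of_comp E.val.toLinearMap ?_
    exact linearIndependent_fibre b f g hcomm hK hg
  have hsp : ⊤ ≤ Submodule.span K (Set.range fun i => g₀ (b i)) := by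
    rintro y -
    have h1 : (y : L) ∈ Submodule.span K (Set.range fun i => g (b i)) := hE2 _ y.2
    have h2 : Submodule.span K (Set.range fun i => g (b i))
        = (Submodule.span K (Set.range fun i => g₀ (b i))).map E.val.toLinearMap := by
      rw [Submodule.map_span, ← Set.range_comp]
      rfl
    rw [h2] at h1
    obtain ⟨y', hy', hyy'⟩ := h1
    have : y' = y := Subtype.ext hyy'
    rwa [← this]
  let b₀ : Basis ι K E := Basis.mk hli hsp
  have hb₀ : ∀ i, b₀ i = g₀ (b i) := fun i => Basis.mk_apply hli hsp i
  have hsepE : Algebra.IsSeparable K E := by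
    rw [← le_separableClosure_iff]
    intro y hy
    have h1 := hE2 y hy
    refine Submodule.span_induction (p := fun w _ => w ∈ separableClosure K L) ?_ ?_ ?_ ?_ h1
    · rintro _ ⟨i, rfl⟩
      exact hsep (b i)
    · exact zero_mem _
    · intro u v _ _ hu hv
      exact add_mem hu hv
    · intro c u _ hu
      rw [Algebra.smul_def]
      exact mul_mem (algebraMap_mem _ c) hu
  have := discr_not_mem_ker_of_isSeparable f g₀ hcomm₀ b b₀ hb₀
  rwa [RingHom.mem_ker] at this

end SeparableFibre

end Fermat.Agent.S18x.CA.H25F
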