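import Mathlib
import Fermat.Agent.S18x.CA.H25_Fibre
import Fermat.Agent.S18x.CA.H16_T1

/-!
# Purity assembly (S18 blueprint, step (I2) / (IG5))

`A` a noetherian integrally closed domain with a maximal ideal `(π, t)`, `π` prime; `B` an
integrally closed domain finite over `A`. If `π B` is prime with separable residue extension
(VERT) and the fibres of `B` over the nonzero primes of `A` inside `(π, t)` not containing `π`
are reduced with residue characteristic zero (HOR), then `B` is "smooth over `(π, t)`": every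
maximal ideal `𝔫` of `B` above `(π, t)` is generated by `π` and `t` after localisation
(`purity_SM`, element form).

Route: localise at `(π, t)`; `B'` is free over `A'` (`H16.exists_basis_of_normal_of_finite`);
the discriminant of a basis avoids `(π)` (`H25F.discr_ne_zero_of_separable_fibre`) and every
other height-one prime (`H25F.discr_ne_zero_of_reduced_fibre`), so it is a unit (Krull,
`H25.isUnit_of_forall_minimal_nonzero_prime_not_mem`); conclude with
`H25.exists_not_mem_mul_eq_map` and clear denominators.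

The transfer lemmas `discr_not_mem_map_ker_of_separable` (V) and
`discr_not_mem_map_ker_of_reduced` (H) are stated for arbitrary localisations
`A → A'`, `B → B'` and are usable alone.
-/

namespace Fermat.Agent.S18x.CA.H25P

open Module Fermat.Agent.S18x.CA.H25 Fermat.Agent.S18x.CA.H25F

section Transfer

variable {A B : Type*} [CommRing A] [CommRing B] [Algebra A B] (M : Submonoid A)
variable {A' B' : Type*} [CommRing A'] [CommRing B'] [Algebra A A'] [Algebra B B']
  [Algebra A' B'] [Algebra A B'] [IsScalarTower A A' B'] [IsScalarTower A B B']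
  [IsLocalization M A'] [IsLocalization (Algebra.algebraMapSubmonoid B M) B']

omit [Algebra A' B'] [IsScalarTower A A' B'] [IsLocalization M A'] in
/-- Every element of `B'` is `x / a` with `x : B`, `a ∈ M`. -/
theorem exists_mul_eq_algebraMap (y : B') :
    ∃ (x : B) (a : A), a ∈ M ∧ algebraMap A B' a * y = algebraMap B B' x := by
  obtain ⟨⟨x, ⟨s, hs⟩⟩, h⟩ := IsLocalization.surj (Algebra.algebraMapSubmonoid B M) y
  obtain ⟨a, ha, rfl⟩ := hs
  exact ⟨x, a, ha, by rw [IsScalarTower.algebraMap_apply A B B', mul_comm]; exact h⟩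

/-- The elements of `M` become units in `B'`. -/
theorem isUnit_algebraMap_of_mem {A : Type*} (B : Type*) [CommRing A] [CommRing B] [Algebra A B]
    (M : Submonoid A) {B' : Type*} [CommRing B'] [Algebra B B'] [Algebra A B']
    [IsScalarTower A B B'] [IsLocalization (Algebra.algebraMapSubmonoid B M) B']
    {a : A} (ha : a ∈ M) : IsUnit (algebraMap A B' a) := by
  rw [IsScalarTower.algebraMap_apply A B B']
  exact IsLocalization.map_units B' (⟨algebraMap A B a, a, ha, rfl⟩ :
    Algebra.algebraMapSubmonoid B M)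

omit [Algebra A' B'] [IsScalarTower A A' B'] [IsLocalization M A'] [Algebra A B']
  [IsScalarTower A B B'] in
/-- Membership in an extended ideal of `B'`, for elements of `B`. -/
theorem exists_mul_mem_of_algebraMap_mem_map (J : Ideal B) (z : B)
    (hz : algebraMap B B' z ∈ J.map (algebraMap B B')) :
    ∃ a ∈ M, algebraMap A B a * z ∈ J := by
  rw [IsLocalization.algebraMap_mem_map_algebraMap_iff (Algebra.algebraMapSubmonoid B M)] at hz
  obtain ⟨m, ⟨a, ha, rfl⟩, hm⟩ := hz
  exact ⟨a, ha, hm⟩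

omit [IsLocalization M A'] [IsLocalization (Algebra.algebraMapSubmonoid B M) B'] in
/-- The two ways of extending an ideal of `A` to `B'` agree. -/
theorem map_map_eq_map_map (I : Ideal A) :
    (I.map (algebraMap A A')).map (algebraMap A' B')
      = (I.map (algebraMap A B)).map (algebraMap B B') := by
  rw [Ideal.map_map, Ideal.map_map, ← IsScalarTower.algebraMap_eq, ← IsScalarTower.algebraMap_eq]

end Transfer

section Vertical

variable {A B : Type*} [CommRing A] [CommRing B] [Algebra A B] (M : Submonoid A)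
variable {A' B' : Type*} [CommRing A'] [CommRing B'] [Algebra A A'] [Algebra B B']
  [Algebra A' B'] [Algebra A B'] [IsScalarTower A A' B'] [IsScalarTower A B B']
  [IsLocalization M A'] [IsLocalization (Algebra.algebraMapSubmonoid B M) B']
variable {ι : Type*} [Fintype ι] [DecidableEq ι]

/-- **(V)** Vertical transfer: the hypotheses of (T2d') for `(A, B, f, g)` give
`discr ∉ (ker f) A'` for any basis of the localisation `B'` over `A'`, provided `f` does not
vanish on `M`. -/
theorem discr_not_mem_map_ker_of_separable (b' : Basis ι A' B')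
    {K L : Type*} [Field K] [Field L] [Algebra K L] (f : A →+* K) (g : B →+* L)
    (hcomm : ∀ a, g (algebraMap A B a) = algebraMap K L (f a))
    (hK : ∀ c : K, ∃ a s : A, f s ≠ 0 ∧ c * f s = f a)
    (hg : ∀ x : B, g x = 0 → x ∈ Ideal.map (algebraMap A B) (RingHom.ker f))
    (hsep : ∀ x : B, IsSeparable K (g x))
    (hM : ∀ a ∈ M, f a ≠ 0) :
    Algebra.discr A' b' ∉ Ideal.map (algebraMap A A') (RingHom.ker f) := by
  let f' : A' →+* K := IsLocalization.lift (M := M) (g := f) (fun y => (hM y y.2).isUnit)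
  have hf' : ∀ a, f' (algebraMap A A' a) = f a := fun a => IsLocalization.lift_eq _ a
  have hgu : ∀ y : Algebra.algebraMapSubmonoid B M, IsUnit (g y) := by
    rintro ⟨_, a, ha, rfl⟩
    change IsUnit (g (algebraMap A B a))
    rw [hcomm]
    exact ((hM a ha).isUnit).map (algebraMap K L)
  let g' : B' →+* L := IsLocalization.lift (M := Algebra.algebraMapSubmonoid B M) (g := g) hgu
  have hg' : ∀ x, g' (algebraMap B B' x) = g x := fun x => IsLocalization.lift_eq _ x
  have hg'A : ∀ a, g' (algebraMap A B' a) = algebraMap K L (f a) := fun a => by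
    rw [IsScalarTower.algebraMap_apply A B B', hg', hcomm]
  have hcomm' : ∀ a', g' (algebraMap A' B' a') = algebraMap K L (f' a') := by
    have h : (g'.comp (algebraMap A' B')) = ((algebraMap K L).comp f') := by
      refine IsLocalization.ringHom_ext M ?_
      ext a
      simp only [RingHom.comp_apply]
      rw [← IsScalarTower.algebraMap_apply A A' B', hg'A, hf']
    exact fun a' => RingHom.congr_fun h a'
  have hK' : ∀ c : K, ∃ a s : A', f' s ≠ 0 ∧ c * f' s = f' a := by
    intro c
    obtain ⟨a, s, hs, h⟩ := hK c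
    exact ⟨algebraMap A A' a, algebraMap A A' s, by rwa [hf'], by rw [hf', hf', h]⟩
  have hle : Ideal.map (algebraMap A A') (RingHom.ker f) ≤ RingHom.ker f' := by
    rw [Ideal.map_le_iff_le_comap]
    intro a ha
    rw [Ideal.mem_comap, RingHom.mem_ker, hf']
    exact ha
  have hgker' : ∀ y : B', g' y = 0 → y ∈ Ideal.map (algebraMap A' B') (RingHom.ker f') := by
    intro y hy
    obtain ⟨x, a, ha, hxa⟩ := exists_mul_eq_algebraMap (B := B) M y
    have h1 : g x = 0 := by rw [← hg', ← hxa, map_mul, hy, mul_zero]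
    have h2 : algebraMap B B' x ∈
        (Ideal.map (algebraMap A B) (RingHom.ker f)).map (algebraMap B B') :=
      Ideal.mem_map_of_mem _ (hg x h1)
    rw [← map_map_eq_map_map (A' := A'), ← hxa] at h2
    have h3 := (Ideal.unit_mul_mem_iff_mem _ (isUnit_algebraMap_of_mem B M ha)).mp h2
    exact Ideal.map_mono hle h3
  have hsep' : ∀ y : B', IsSeparable K (g' y) := by
    intro y
    obtain ⟨x, a, ha, hxa⟩ := exists_mul_eq_algebraMap (B := B) M y
    have h1 : algebraMap K L (f a) * g' y = g x := by rw [← hg'A, ← map_mul, hxa, hg']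
    have h2 : g' y = algebraMap K L (f a)⁻¹ * g x := by
      rw [← h1, ← mul_assoc, ← map_mul, inv_mul_cancel₀ (hM a ha), map_one, one_mul]
    rw [h2]
    exact Field.isSeparable_mul (isSeparable_algebraMap _) (hsep x)
  have := discr_ne_zero_of_separable_fibre b' f' g' hcomm' hK' hgker' hsep'
  exact fun hd => this ((RingHom.mem_ker).mp (hle hd))

end Vertical

section Horizontal

variable {A B : Type*} [CommRing A] [CommRing B] [Algebra A B] (M : Submonoid A)
variable {A' B' : Type*} [CommRing A'] [CommRing B'] [Algebra A A'] [Algebra B B']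
  [Algebra A' B'] [Algebra A B'] [IsScalarTower A A' B'] [IsScalarTower A B B']
  [IsLocalization M A'] [IsLocalization (Algebra.algebraMapSubmonoid B M) B']
variable {ι : Type*} [Fintype ι] [DecidableEq ι]

/-- **(H)** Horizontal transfer: the hypotheses of (T2e) for `(A, B, f)` give
`discr ∉ (ker f) A'` for any basis of the localisation `B'` over `A'`, provided `f` does not
vanish on `M`. -/
theorem discr_not_mem_map_ker_of_reduced (b' : Basis ι A' B')
    {κ : Type*} [Field κ] [CharZero κ] (f : A →+* κ)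
    (hK : ∀ c : κ, ∃ a s : A, f s ≠ 0 ∧ c * f s = f a)
    (hred : ∀ x : B, x * x ∈ Ideal.map (algebraMap A B) (RingHom.ker f) →
      ∃ s : A, f s ≠ 0 ∧ algebraMap A B s * x ∈ Ideal.map (algebraMap A B) (RingHom.ker f))
    (hM : ∀ a ∈ M, f a ≠ 0) :
    Algebra.discr A' b' ∉ Ideal.map (algebraMap A A') (RingHom.ker f) := by
  let f' : A' →+* κ := IsLocalization.lift (M := M) (g := f) (fun y => (hM y y.2).isUnit)
  have hf' : ∀ a, f' (algebraMap A A' a) = f a := fun a => IsLocalization.lift_eq _ a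
  have hK' : ∀ c : κ, ∃ a s : A', f' s ≠ 0 ∧ c * f' s = f' a := by
    intro c
    obtain ⟨a, s, hs, h⟩ := hK c
    exact ⟨algebraMap A A' a, algebraMap A A' s, by rwa [hf'], by rw [hf', hf', h]⟩
  have hker : RingHom.ker f' = Ideal.map (algebraMap A A') (RingHom.ker f) := by
    refine le_antisymm (fun a' ha' => ?_) ?_
    · obtain ⟨⟨a, s⟩, h⟩ := IsLocalization.surj M a'
      have h1 : f a = 0 := by
        rw [← hf', ← h, map_mul, (RingHom.mem_ker).mp ha', zero_mul]
      have h2 : a' * algebraMap A A' s ∈ Ideal.map (algebraMap A A') (RingHom.ker f) := by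
        rw [h]; exact Ideal.mem_map_of_mem _ ((RingHom.mem_ker).mpr h1)
      rw [mul_comm] at h2
      exact (Ideal.unit_mul_mem_iff_mem _ (IsLocalization.map_units A' s)).mp h2
    · rw [Ideal.map_le_iff_le_comap]
      intro a ha
      rw [Ideal.mem_comap, RingHom.mem_ker, hf']
      exact ha
  have hred' : ∀ y : B', y * y ∈ Ideal.map (algebraMap A' B') (RingHom.ker f') →
      ∃ s : A', f' s ≠ 0 ∧
        algebraMap A' B' s * y ∈ Ideal.map (algebraMap A' B') (RingHom.ker f') := by
    intro y hy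
    rw [hker, map_map_eq_map_map (B := B)] at hy ⊢
    obtain ⟨x, a, ha, hxa⟩ := exists_mul_eq_algebraMap (B := B) M y
    have h1 : algebraMap B B' (x * x) ∈
        (Ideal.map (algebraMap A B) (RingHom.ker f)).map (algebraMap B B') := by
      have : algebraMap B B' (x * x) = (algebraMap A B' a * algebraMap A B' a) * (y * y) := by
        rw [map_mul, ← hxa]; ring
      rw [this]
      exact Ideal.mul_mem_left _ _ hy
    obtain ⟨c, hc, hcx⟩ := exists_mul_mem_of_algebraMap_mem_map M _ _ h1
    have h2 : (algebraMap A B c * x) * (algebraMap A B c * x) ∈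
        Ideal.map (algebraMap A B) (RingHom.ker f) := by
      have : (algebraMap A B c * x) * (algebraMap A B c * x)
          = algebraMap A B c * (algebraMap A B c * (x * x)) := by ring
      rw [this]
      exact Ideal.mul_mem_left _ _ hcx
    obtain ⟨s, hs, hsx⟩ := hred _ h2
    refine ⟨algebraMap A A' (s * c * a), ?_, ?_⟩
    · rw [hf', map_mul, map_mul]
      exact mul_ne_zero (mul_ne_zero hs (hM c hc)) (hM a ha)
    · have h3 : algebraMap A' B' (algebraMap A A' (s * c * a)) * y
          = algebraMap B B' (algebraMap A B s * (algebraMap A B c * x)) := by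
        rw [← IsScalarTower.algebraMap_apply A A' B', map_mul (algebraMap B B'),
          map_mul (algebraMap B B'), ← hxa, ← IsScalarTower.algebraMap_apply A B B',
          ← IsScalarTower.algebraMap_apply A B B', map_mul, map_mul]
        ring
      rw [h3]
      exact Ideal.mem_map_of_mem _ hsx
  have := discr_ne_zero_of_reduced_fibre b' f' hK' hred'
  exact fun hd => this ((RingHom.mem_ker).mp (hker ▸ hd))

end Horizontal

section Krull

variable {A B : Type*} [CommRing A] [IsDomain A] [IsNoetherianRing A] [CommRing B] [Algebra A B]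
variable {ι : Type*} [Fintype ι] [DecidableEq ι]

/-- **(P1)** If the discriminant of a basis lies neither in the prime `(π)` nor in any nonzero
prime not containing `π`, it is a unit. -/
theorem isUnit_discr_of_fibres (b : Basis ι A B) (π : A) (hπ : Prime π)
    (hvert : Algebra.discr A b ∉ Ideal.span {π})
    (hhor : ∀ 𝔭 : Ideal A, 𝔭.IsPrime → 𝔭 ≠ ⊥ → π ∉ 𝔭 → Algebra.discr A b ∉ 𝔭) :
    IsUnit (Algebra.discr A b) := by
  have hd0 : Algebra.discr A b ≠ 0 := fun h => hvert (h ▸ Ideal.zero_mem _)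
  refine isUnit_of_forall_minimal_nonzero_prime_not_mem hd0 (fun 𝔭 h𝔭 h𝔭0 hmin => ?_)
  by_cases hπ𝔭 : π ∈ 𝔭
  · have hle : Ideal.span {π} ≤ 𝔭 := (Ideal.span_singleton_le_iff_mem 𝔭).mpr hπ𝔭
    have hprime : (Ideal.span {π} : Ideal A).IsPrime :=
      (Ideal.span_singleton_prime hπ.ne_zero).mpr hπ
    have hne : (Ideal.span {π} : Ideal A) ≠ ⊥ := by
      rw [Ne, Ideal.span_singleton_eq_bot]; exact hπ.ne_zero
    rw [← hmin _ hprime hne hle]
    exact hvert
  · exact hhor 𝔭 h𝔭 h𝔭0 hπ𝔭

end Krull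

section Assembly

/-- **(I2-PUR), abstract localisation form.** -/
theorem purity_SM_aux {A B : Type*} [CommRing A] [IsDomain A] [CommRing B] [IsDomain B]
    [Algebra A B] [FaithfulSMul A B] (𝔪 : Ideal A) [h𝔪 : 𝔪.IsMaximal]
    (A' B' : Type*) [CommRing A'] [CommRing B'] [Algebra A A'] [Algebra B B']
    [Algebra A' B'] [Algebra A B'] [IsScalarTower A A' B'] [IsScalarTower A B B']
    [IsLocalization.AtPrime A' 𝔪] [IsLocalization (Algebra.algebraMapSubmonoid B 𝔪.primeCompl) B']
    [IsDomain A'] [IsLocalRing A'] [IsNoetherianRing A'] [IsIntegrallyClosed A']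
    [IsDomain B'] [IsIntegrallyClosed B'] [FaithfulSMul A' B'] [Module.Finite A' B']
    (π t : A) (hm : 𝔪 = Ideal.span {π, t}) (hπ : Prime π)
    (ht : t ∉ Ideal.span {π})
    {K L : Type*} [Field K] [Field L] [Algebra K L] (f : A →+* K) (g : B →+* L)
    (hcomm : ∀ a, g (algebraMap A B a) = algebraMap K L (f a))
    (hfπ : f π = 0) (hf : ∀ a, f a = 0 → π ∣ a)
    (hK : ∀ c : K, ∃ a s : A, f s ≠ 0 ∧ c * f s = f a)
    (hg : ∀ x : B, g x = 0 → algebraMap A B π ∣ x)
    (hsep : ∀ x : B, IsSeparable K (g x))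
    (hhor : ∀ 𝔭 : Ideal A, 𝔭.IsPrime → 𝔭 ≠ ⊥ → π ∉ 𝔭 → 𝔭 ≤ Ideal.span {π, t} →
      (∀ n : ℕ, n ≠ 0 → (n : A) ∉ 𝔭) ∧
      ∀ x : B, x * x ∈ 𝔭.map (algebraMap A B) →
        ∃ s : A, s ∉ 𝔭 ∧ algebraMap A B s * x ∈ 𝔭.map (algebraMap A B))
    (𝔫 : Ideal B) (h𝔫 : 𝔫 ≠ ⊤) (hover : ∀ a ∈ Ideal.span {π, t}, algebraMap A B a ∈ 𝔫)
    (x : B) (hx : x ∈ 𝔫) :
    ∃ s : B, s ∉ 𝔫 ∧ ∃ u v : B, s * x = algebraMap A B π * u + algebraMap A B t * v := by
  classical
  set M : Submonoid A := 𝔪.primeCompl with hMdef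
  have hmemM : ∀ a, a ∈ M ↔ a ∉ 𝔪 := fun a => Iff.rfl
  have hπ𝔪 : π ∈ 𝔪 := by rw [hm]; exact Ideal.subset_span (by simp)
  have hMnz : M ≤ nonZeroDivisors A := Ideal.primeCompl_le_nonZeroDivisors 𝔪
  have hinjA : Function.Injective (algebraMap A A') := IsLocalization.injective A' hMnz
  have hinjAB : Function.Injective (algebraMap A B) := FaithfulSMul.algebraMap_injective A B
  have hMBnz : Algebra.algebraMapSubmonoid B M ≤ nonZeroDivisors B :=
    Submonoid.map_le_of_le_comap _ <| hMnz.trans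
      (nonZeroDivisors_le_comap_nonZeroDivisors_of_injective _ hinjAB)
  have hinjB : Function.Injective (algebraMap B B') := IsLocalization.injective B' hMBnz
  -- the maximal ideal of `A'`
  have hm' : IsLocalRing.maximalIdeal A'
      = Ideal.span {algebraMap A A' π, algebraMap A A' t} := by
    rw [← IsLocalization.AtPrime.map_eq_maximalIdeal 𝔪 A', hm, Ideal.map_span, Set.image_pair]
  -- the prime `(π)`
  have hprimeπ : (Ideal.span {π} : Ideal A).IsPrime :=
    (Ideal.span_singleton_prime hπ.ne_zero).mpr hπ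
  have hπle : (Ideal.span {π} : Ideal A) ≤ 𝔪 := (Ideal.span_singleton_le_iff_mem 𝔪).mpr hπ𝔪
  have hdisjπ : Disjoint (M : Set A) ((Ideal.span {π} : Ideal A) : Set A) :=
    Set.disjoint_left.mpr (fun a ha haπ => ha (hπle haπ))
  have hmapπ : Ideal.map (algebraMap A A') (Ideal.span {π}) = Ideal.span {algebraMap A A' π} := by
    rw [Ideal.map_span, Set.image_singleton]
  have hπ'0 : algebraMap A A' π ≠ 0 := fun h =>
    hπ.ne_zero (hinjA (by rw [h, map_zero]))
  have hπ' : Prime (algebraMap A A' π) := by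
    rw [← Ideal.span_singleton_prime hπ'0, ← hmapπ]
    exact IsLocalization.isPrime_of_isPrime_disjoint M A' _ hprimeπ hdisjπ
  have ht' : algebraMap A A' t ∉ Ideal.span {algebraMap A A' π} := by
    intro h
    rw [← hmapπ] at h
    have h2 : t ∈ (Ideal.map (algebraMap A A') (Ideal.span {π})).under A := h
    rw [IsLocalization.under_map_of_isPrime_disjoint M A' hprimeπ hdisjπ] at h2
    exact ht h2
  obtain ⟨n, ⟨b⟩⟩ := Fermat.Agent.S18x.CA.H16.exists_basis_of_normal_of_finite (B := B')
    (algebraMap A A' π) (algebraMap A A' t) hm' hπ' ht'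
  -- vertical prime
  have hker : RingHom.ker f = Ideal.span {π} := by
    ext a
    rw [RingHom.mem_ker, Ideal.mem_span_singleton]
    exact ⟨hf a, fun ⟨c, hc⟩ => by rw [hc, map_mul, hfπ, zero_mul]⟩
  have hMf : ∀ a ∈ M, f a ≠ 0 := by
    intro a ha h0
    have : a ∈ Ideal.span {π} := hker ▸ (RingHom.mem_ker.mpr h0)
    exact ha (hπle this)
  have hg' : ∀ x : B, g x = 0 → x ∈ Ideal.map (algebraMap A B) (RingHom.ker f) := by
    intro x hx0
    rw [hker, Ideal.map_span, Set.image_singleton, Ideal.mem_span_singleton]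
    exact hg x hx0
  have hvert : Algebra.discr A' b ∉ Ideal.span {algebraMap A A' π} := by
    have := discr_not_mem_map_ker_of_separable M b f g hcomm hK hg' hsep hMf
    rwa [hker, hmapπ] at this
  -- horizontal primes
  have hhor' : ∀ 𝔭' : Ideal A', 𝔭'.IsPrime → 𝔭' ≠ ⊥ → algebraMap A A' π ∉ 𝔭' →
      Algebra.discr A' b ∉ 𝔭' := by
    intro 𝔭' h𝔭' h0 hπ𝔭'
    set 𝔭 : Ideal A := 𝔭'.comap (algebraMap A A') with h𝔭def
    have h𝔭 : 𝔭.IsPrime := Ideal.comap_isPrime _ _
    have hmap : 𝔭.map (algebraMap A A') = 𝔭' := IsLocalization.map_under M A' 𝔭'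
    have h𝔭0 : 𝔭 ≠ ⊥ := by
      intro h
      rw [h, Ideal.map_bot] at hmap
      exact h0 hmap.symm
    have hπ𝔭 : π ∉ 𝔭 := fun h => hπ𝔭' h
    have h𝔭le : 𝔭 ≤ 𝔪 := by
      intro a ha
      by_contra ha'
      have hu : IsUnit (algebraMap A A' a) := IsLocalization.map_units A' (⟨a, ha'⟩ : M)
      exact h𝔭'.ne_top (Ideal.eq_top_of_isUnit_mem _ ha hu)
    obtain ⟨hchar, hred⟩ := hhor 𝔭 h𝔭 h𝔭0 hπ𝔭 (hm ▸ h𝔭le)
    let κ := FractionRing (A ⧸ 𝔭)
    let f₀ : A →+* κ := (algebraMap (A ⧸ 𝔭) κ).comp (Ideal.Quotient.mk 𝔭)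
    have hinjκ : Function.Injective (algebraMap (A ⧸ 𝔭) κ) := IsFractionRing.injective _ _
    have hf₀ : ∀ a, f₀ a = 0 ↔ a ∈ 𝔭 := by
      intro a
      change algebraMap (A ⧸ 𝔭) κ (Ideal.Quotient.mk 𝔭 a) = 0 ↔ _
      rw [map_eq_zero_iff _ hinjκ, Ideal.Quotient.eq_zero_iff_mem]
    have hker₀ : RingHom.ker f₀ = 𝔭 := by
      ext a; rw [RingHom.mem_ker, hf₀]
    have hcz : CharZero κ := by
      refine charZero_of_inj_zero (fun k hk => ?_)
      by_contra hk0
      have h1 : f₀ (k : A) = 0 := by rw [map_natCast]; exact hk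
      exact hchar k hk0 ((hf₀ _).mp h1)
    have hK₀ : ∀ c : κ, ∃ a s : A, f₀ s ≠ 0 ∧ c * f₀ s = f₀ a := by
      intro c
      obtain ⟨⟨a', ⟨s', hs'⟩⟩, h⟩ := IsLocalization.surj (nonZeroDivisors (A ⧸ 𝔭)) c
      obtain ⟨a, rfl⟩ := Ideal.Quotient.mk_surjective a'
      obtain ⟨s, rfl⟩ := Ideal.Quotient.mk_surjective s'
      refine ⟨a, s, ?_, h⟩
      intro h0
      have : Ideal.Quotient.mk 𝔭 s = 0 := (map_eq_zero_iff _ hinjκ).mp h0
      exact nonZeroDivisors.ne_zero hs' this
    have hred₀ : ∀ x : B, x * x ∈ Ideal.map (algebraMap A B) (RingHom.ker f₀) →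
        ∃ s : A, f₀ s ≠ 0 ∧
          algebraMap A B s * x ∈ Ideal.map (algebraMap A B) (RingHom.ker f₀) := by
      intro x hx2
      rw [hker₀] at hx2 ⊢
      obtain ⟨s, hs, hsx⟩ := hred x hx2
      exact ⟨s, fun h => hs ((hf₀ s).mp h), hsx⟩
    have hM₀ : ∀ a ∈ M, f₀ a ≠ 0 := fun a ha h => ha (h𝔭le ((hf₀ a).mp h))
    have := discr_not_mem_map_ker_of_reduced M b f₀ hK₀ hred₀ hM₀
    rwa [hker₀, hmap] at this
  have hunit : IsUnit (Algebra.discr A' b) :=
    isUnit_discr_of_fibres b (algebraMap A A' π) hπ' hvert hhor'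
  have hd : Algebra.discr A' b ∉ IsLocalRing.maximalIdeal A' := fun h =>
    (IsLocalRing.mem_maximalIdeal _).mp h hunit
  -- the ideal `𝔫 B'`
  have hdisj𝔫 : Disjoint ((Algebra.algebraMapSubmonoid B M : Submonoid B) : Set B) (𝔫 : Set B) := by
    refine Set.disjoint_left.mpr ?_
    rintro _ ⟨a, ha, rfl⟩ ha𝔫
    obtain ⟨y, i, hi, hyi⟩ := h𝔪.exists_inv ha
    refine h𝔫 ((Ideal.eq_top_iff_one 𝔫).mpr ?_)
    have h1 : (1 : B) = algebraMap A B y * algebraMap A B a + algebraMap A B i := by
      rw [← map_mul, ← map_add, hyi, map_one]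
    rw [h1]
    exact 𝔫.add_mem (𝔫.mul_mem_left _ ha𝔫) (hover i (hm ▸ hi))
  have h𝔫' : 𝔫.map (algebraMap B B') ≠ ⊤ :=
    (IsLocalization.map_algebraMap_ne_top_iff_disjoint (Algebra.algebraMapSubmonoid B M) B' 𝔫).mpr
      hdisj𝔫
  have hx' : algebraMap B B' x ∈ 𝔫.map (algebraMap B B') := Ideal.mem_map_of_mem _ hx
  obtain ⟨s', hs', u', v', h⟩ := exists_not_mem_mul_eq_map b (IsLocalRing.maximalIdeal A') hd
    (algebraMap A A' π) (algebraMap A A' t) hm' (𝔫.map (algebraMap B B')) h𝔫' hx'
  rw [← IsScalarTower.algebraMap_apply A A' B', ← IsScalarTower.algebraMap_apply A A' B'] at h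
  obtain ⟨xs, as, has, hs1⟩ := exists_mul_eq_algebraMap (B := B) M s'
  obtain ⟨xu, au, hau, hu1⟩ := exists_mul_eq_algebraMap (B := B) M u'
  obtain ⟨xv, av, hav, hv1⟩ := exists_mul_eq_algebraMap (B := B) M v'
  refine ⟨algebraMap A B (au * av) * xs, ?_, algebraMap A B (as * av) * xu,
    algebraMap A B (as * au) * xv, ?_⟩
  · intro hmem
    have h1 : algebraMap B B' (algebraMap A B (au * av) * xs) ∈ 𝔫.map (algebraMap B B') :=
      Ideal.mem_map_of_mem _ hmem
    have h2 : algebraMap B B' (algebraMap A B (au * av) * xs)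
        = algebraMap A B' (au * av * as) * s' := by
      rw [map_mul, ← hs1, ← IsScalarTower.algebraMap_apply A B B', map_mul (algebraMap A B') _ as]
      ring
    rw [h2] at h1
    exact hs' ((Ideal.unit_mul_mem_iff_mem _
      (isUnit_algebraMap_of_mem B M (M.mul_mem (M.mul_mem hau hav) has))).mp h1)
  · apply hinjB
    simp only [map_mul, map_add, ← IsScalarTower.algebraMap_apply A B B']
    rw [← hs1, ← hu1, ← hv1]
    have h3 : algebraMap A B' au * algebraMap A B' av * (algebraMap A B' as * s')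
          * algebraMap B B' x
        = algebraMap A B' as * algebraMap A B' au * algebraMap A B' av
          * (s' * algebraMap B B' x) := by ring
    rw [h3, h]
    ring

end Assembly

section Final

/-- **(I2-PUR) PURITY ASSEMBLY.** `A` a noetherian integrally closed domain, `(π, t)` a maximal
ideal with `π` prime and `t ∉ (π)`; `B` an integrally closed domain, finite and torsion-free
over `A`. Assume

* (VERT) `π B` is prime with separable residue extension: there are compatible ring
  homomorphisms `f : A → K`, `g : B → L` to fields with `ker f = (π)`, `K = Frac (f A)`,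
  `ker g ⊆ π B` and every `g x` separable over `K`;
* (HOR) for every nonzero prime `𝔭 ≤ (π, t)` of `A` not containing `π`, the residue
  characteristic is zero and the fibre of `B` over `𝔭` is reduced.

Then every proper ideal `𝔫` of `B` containing `(π, t)` (e.g. a maximal ideal above `(π, t)`)
is generated by `π` and `t` after localisation: for `x ∈ 𝔫` there is `s ∉ 𝔫` with
`s * x = π u + t v`. -/
theorem purity_SM {A B : Type*} [CommRing A] [IsDomain A] [IsNoetherianRing A]
    [IsIntegrallyClosed A] [CommRing B] [IsDomain B] [IsIntegrallyClosed B] [Algebra A B]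
    [FaithfulSMul A B] [Module.Finite A B]
    (π t : A) (hmax : (Ideal.span {π, t} : Ideal A).IsMaximal) (hπ : Prime π)
    (ht : t ∉ Ideal.span {π})
    {K L : Type*} [Field K] [Field L] [Algebra K L] (f : A →+* K) (g : B →+* L)
    (hcomm : ∀ a, g (algebraMap A B a) = algebraMap K L (f a))
    (hfπ : f π = 0) (hf : ∀ a, f a = 0 → π ∣ a)
    (hK : ∀ c : K, ∃ a s : A, f s ≠ 0 ∧ c * f s = f a)
    (hg : ∀ x : B, g x = 0 → algebraMap A B π ∣ x)
    (hsep : ∀ x : B, IsSeparable K (g x))
    (hhor : ∀ 𝔭 : Ideal A, 𝔭.IsPrime → 𝔭 ≠ ⊥ → π ∉ 𝔭 → 𝔭 ≤ Ideal.span {π, t} →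
      (∀ n : ℕ, n ≠ 0 → (n : A) ∉ 𝔭) ∧
      ∀ x : B, x * x ∈ 𝔭.map (algebraMap A B) →
        ∃ s : A, s ∉ 𝔭 ∧ algebraMap A B s * x ∈ 𝔭.map (algebraMap A B))
    (𝔫 : Ideal B) (h𝔫 : 𝔫 ≠ ⊤) (hover : ∀ a ∈ Ideal.span {π, t}, algebraMap A B a ∈ 𝔫)
    (x : B) (hx : x ∈ 𝔫) :
    ∃ s : B, s ∉ 𝔫 ∧ ∃ u v : B, s * x = algebraMap A B π * u + algebraMap A B t * v := by
  have h𝔪 : (Ideal.span {π, t} : Ideal A).IsMaximal := hmax
  let 𝔪 : Ideal A := Ideal.span {π, t}
  let A' := Localization.AtPrime 𝔪
  let B' := Localization (Algebra.algebraMapSubmonoid B 𝔪.primeCompl)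
  have hinjAB : Function.Injective (algebraMap A B) := FaithfulSMul.algebraMap_injective A B
  have e : Algebra.algebraMapSubmonoid B 𝔪.primeCompl ≤ nonZeroDivisors B :=
    Submonoid.map_le_of_le_comap _ <| 𝔪.primeCompl_le_nonZeroDivisors.trans
      (nonZeroDivisors_le_comap_nonZeroDivisors_of_injective _ hinjAB)
  have : IsDomain A' := IsLocalization.isDomain_of_le_nonZeroDivisors _
    𝔪.primeCompl_le_nonZeroDivisors
  have : IsDomain B' := IsLocalization.isDomain_of_le_nonZeroDivisors _ e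
  have : IsNoetherianRing A' := IsLocalization.isNoetherianRing 𝔪.primeCompl A' inferInstance
  have : IsIntegrallyClosed A' :=
    isIntegrallyClosed_of_isLocalization A' 𝔪.primeCompl 𝔪.primeCompl_le_nonZeroDivisors
  have : IsIntegrallyClosed B' := isIntegrallyClosed_of_isLocalization B' _ e
  have : Module.Finite A' B' := .of_isLocalization A B 𝔪.primeCompl
  have : FaithfulSMul A' B' :=
    (faithfulSMul_iff_algebraMap_injective A' B').mpr
      (localizationAlgebra_injective (Rₘ := A') (Sₘ := B') hinjAB)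
  exact purity_SM_aux 𝔪 A' B' π t rfl hπ ht f g hcomm hfπ hf hK hg hsep hhor 𝔫 h𝔫 hover x hx

end Final

end Fermat.Agent.S18x.CA.H25P
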