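import Mathlib

/-!
# [CA] (T3) the quotient lemma, in local-ring form

Let `R` be a local domain with maximal ideal `(π, t)` such that `R/π` is a domain and `t ∉ (π)`
(so `R/π` is a discrete valuation ring with uniformiser `t`), and let a finite group `H` act
faithfully on `R` by ring automorphisms fixing `π`, with `R` finite over `S = R^H` and trivial
residue field extension.  Then with `n = |H|` and `N = ∏ h • t`:

* `N ∈ S` and `N = v t^n + π c` with `v` a unit;
* `R` is free over `S` with basis `1, t, …, t^(n-1)`;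
* `S ∩ 𝔪_R = (π, N) S`, so `S` is local with maximal ideal generated by `π` and `N`.

No hypothesis on the characteristic of the residue field (it may divide `|H|`).
-/

set_option autoImplicit false
set_option linter.unusedSectionVars false

namespace Fermat.Agent.S18x.CA.H14

open IsLocalRing Polynomial

section Action

variable {R : Type*} [CommRing R] {H : Type*} [Group H] [MulSemiringAction H R]

theorem isUnit_smul_iff' (h : H) (x : R) : IsUnit (h • x) ↔ IsUnit x := by
  have key : ∀ (g : H) (y : R), IsUnit y → IsUnit (g • y) := by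
    intro g y hy
    obtain ⟨z, hz⟩ := isUnit_iff_exists_inv.1 hy
    refine isUnit_iff_exists_inv.2 ⟨g • z, ?_⟩
    rw [← smul_mul', hz, smul_one]
  constructor
  · intro hx
    have := key h⁻¹ _ hx
    rwa [inv_smul_smul] at this
  · exact key h x

theorem smul_mem_maximalIdeal [IsLocalRing R] (h : H) {x : R} (hx : x ∈ maximalIdeal R) :
    h • x ∈ maximalIdeal R := by
  rw [mem_maximalIdeal, mem_nonunits_iff] at hx ⊢
  rwa [isUnit_smul_iff']

/-- The norm `∏ h • t`. -/
noncomputable def normElt (H : Type*) [Group H] [Fintype H] [MulSemiringAction H R] (t : R) : R :=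
  ∏ h : H, h • t

theorem smul_normElt [Fintype H] (g : H) (t : R) : g • normElt H t = normElt H t := by
  unfold normElt
  rw [show g • ∏ h : H, h • t = ∏ h : H, g • (h • t) from
    map_prod (MulSemiringAction.toRingHom H R g) _ _]
  simp only [← mul_smul]
  exact Fintype.prod_equiv (Equiv.mulLeft g) _ _ (fun h => rfl)

theorem normElt_mem [Fintype H] (t : R) : normElt H t ∈ FixedPoints.subring R H :=
  fun g => smul_normElt g t

/-- A unit of `R` lying in `S = R^H` is a unit of `S`. -/
theorem isUnit_subring_of_isUnit {s : FixedPoints.subring R H} (hs : IsUnit (s : R)) :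
    IsUnit s := by
  obtain ⟨z, hz⟩ := isUnit_iff_exists_inv.1 hs
  have hzS : z ∈ FixedPoints.subring R H := by
    intro g
    have h1 : (g • z) * (s : R) = 1 := by
      have := congrArg (fun y => g • y) hz
      simp only [smul_mul', smul_one] at this
      rw [mul_comm]
      rwa [show g • (s : R) = s from s.2 g] at this
    calc g • z = g • z * ((s : R) * z) := by rw [hz, mul_one]
      _ = (g • z * (s : R)) * z := by ring
      _ = z := by rw [h1, one_mul]
  exact isUnit_iff_exists_inv.2 ⟨⟨z, hzS⟩, Subtype.ext hz⟩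

end Action

section Main

variable {R : Type*} [CommRing R] [IsDomain R] [IsLocalRing R]
  {H : Type*} [Group H] [Fintype H] [MulSemiringAction H R]
  {π t : R}

omit [IsDomain R] [Fintype H] in
/-- `h • t = u t + π c` with `u` a unit. -/
theorem exists_smul_eq (hπ : ∀ h : H, h • π = π) (hm : maximalIdeal R = Ideal.span {π, t})
    (hprime : (Ideal.span {π} : Ideal R).IsPrime) (ht : t ∉ (Ideal.span {π} : Ideal R)) (h : H) :
    ∃ u c : R, IsUnit u ∧ h • t = u * t + π * c := by
  have htm : t ∈ maximalIdeal R := by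
    rw [hm]; exact Ideal.subset_span (by simp)
  have h1 : h • t ∈ Ideal.span {π, t} := hm ▸ smul_mem_maximalIdeal h htm
  have h2 : h⁻¹ • t ∈ Ideal.span {π, t} := hm ▸ smul_mem_maximalIdeal h⁻¹ htm
  obtain ⟨a, u, hau⟩ := Ideal.mem_span_pair.1 h1
  obtain ⟨a', u', hau'⟩ := Ideal.mem_span_pair.1 h2
  refine ⟨u, a, ?_, by rw [← hau]; ring⟩
  have h3 : t = h • a' * π + h • u' * h • t := by
    have := congrArg (fun y => h • y) hau'
    simp only [smul_add, smul_mul', smul_inv_smul, hπ] at this
    exact this.symm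
  have h4 : t * (1 - h • u' * u) ∈ (Ideal.span {π} : Ideal R) := by
    rw [Ideal.mem_span_singleton]
    refine ⟨h • a' + h • u' * a, ?_⟩
    rw [← hau] at h3
    linear_combination h3
  have h5 : 1 - h • u' * u ∈ (Ideal.span {π} : Ideal R) :=
    (hprime.mem_or_mem h4).resolve_left ht
  have h6 : 1 - h • u' * u ∈ nonunits R := by
    have hle : (Ideal.span {π} : Ideal R) ≤ maximalIdeal R := by
      rw [hm]
      exact Ideal.span_mono (by simp)
    exact (mem_maximalIdeal _).1 (hle h5)
  have h7 := isUnit_one_sub_self_of_mem_nonunits _ h6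
  rw [sub_sub_cancel] at h7
  exact isUnit_of_mul_isUnit_right h7

/-- `N = v t^n + π c` with `v` a unit, `n = |H|`. -/
theorem exists_normElt_eq (hπ : ∀ h : H, h • π = π) (hm : maximalIdeal R = Ideal.span {π, t})
    (hprime : (Ideal.span {π} : Ideal R).IsPrime) (ht : t ∉ (Ideal.span {π} : Ideal R)) :
    ∃ v c : R, IsUnit v ∧ normElt H t = v * t ^ Fintype.card H + π * c := by
  classical
  have key : ∀ s : Finset H, ∃ v c : R, IsUnit v ∧ ∏ h ∈ s, h • t = v * t ^ s.card + π * c := by
    intro s
    induction s using Finset.induction_on with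
    | empty => exact ⟨1, 0, isUnit_one, by simp⟩
    | insert h s hhs ih =>
      obtain ⟨v, c, hv, hvc⟩ := ih
      obtain ⟨u, d, hu, hud⟩ := exists_smul_eq hπ hm hprime ht h
      refine ⟨u * v, u * t * c + d * (v * t ^ s.card) + d * π * c, hu.mul hv, ?_⟩
      rw [Finset.prod_insert hhs, Finset.card_insert_of_notMem hhs, hvc, hud]
      ring
  simpa [normElt] using key Finset.univ

variable (H) in
/-- The ideal `S ∩ 𝔪_R` of `S = R^H`. -/
def maxS (R : Type*) [CommRing R] [IsLocalRing R] [MulSemiringAction H R] :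
    Ideal (FixedPoints.subring R H) :=
  Ideal.comap (algebraMap (FixedPoints.subring R H) R) (maximalIdeal R)

omit [IsDomain R] [Fintype H] in
theorem mem_maxS {s : FixedPoints.subring R H} : s ∈ maxS H R ↔ (s : R) ∈ maximalIdeal R :=
  Iff.rfl

theorem maxS_le_jacobson : maxS H R ≤ Ideal.jacobson ⊥ := by
  intro x hx
  rw [Ideal.mem_jacobson_bot]
  intro y
  apply isUnit_subring_of_isUnit
  have h1 : ((x * y : FixedPoints.subring R H) : R) ∈ maximalIdeal R :=
    Ideal.mul_mem_right _ _ (mem_maxS.1 hx)
  have h2 : -((x * y : FixedPoints.subring R H) : R) ∈ nonunits R :=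
    (mem_maximalIdeal _).1 (neg_mem h1)
  have h3 := isUnit_one_sub_self_of_mem_nonunits _ h2
  rw [sub_neg_eq_add, add_comm] at h3
  exact h3

/-- Every element is a polynomial of degree `< n` in `t` over `S` modulo `(π, t^n)`. -/
theorem exists_decomp (hm : maximalIdeal R = Ideal.span {π, t})
    (hres : ∀ r : R, ∃ s ∈ FixedPoints.subring R H, r - s ∈ maximalIdeal R) (n : ℕ) (r : R) :
    ∃ p : (FixedPoints.subring R H)[X], p ∈ degreeLT (FixedPoints.subring R H) n ∧
      ∃ a b : R, r = aeval t p + π * a + t ^ n * b := by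
  induction n with
  | zero =>
    refine ⟨0, Submodule.zero_mem _, 0, r, by simp⟩
  | succ n ih =>
    obtain ⟨p, hp, a, b, hr⟩ := ih
    obtain ⟨s, hs, hbs⟩ := hres b
    rw [hm] at hbs
    obtain ⟨a', b', hab⟩ := Ideal.mem_span_pair.1 hbs
    refine ⟨p + C (⟨s, hs⟩ : FixedPoints.subring R H) * X ^ n, ?_, a + t ^ n * a', b', ?_⟩
    · refine Submodule.add_mem _ (degreeLT_mono (Nat.le_succ n) hp) ?_
      rw [mem_degreeLT]
      refine lt_of_le_of_lt (degree_C_mul_X_pow_le n _) ?_
      exact_mod_cast Nat.lt_succ_self n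
    · rw [map_add, map_mul, aeval_C, map_pow, aeval_X, hr]
      have e : (algebraMap (FixedPoints.subring R H) R) ⟨s, hs⟩ = s := rfl
      rw [e]
      linear_combination (-(t ^ n)) * hab

theorem normElt_mem_maximalIdeal (hm : maximalIdeal R = Ideal.span {π, t}) :
    normElt H t ∈ maximalIdeal R := by
  have htm : t ∈ maximalIdeal R := by
    rw [hm]; exact Ideal.subset_span (by simp)
  have hdvd : (1 : H) • t ∣ normElt H t := Finset.dvd_prod_of_mem _ (Finset.mem_univ 1)
  rw [one_smul] at hdvd
  exact Ideal.mem_of_dvd _ hdvd htm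

theorem pi_mem_maximalIdeal (hm : maximalIdeal R = Ideal.span {π, t}) : π ∈ maximalIdeal R := by
  rw [hm]; exact Ideal.subset_span (by simp)

/-- `(π, t^n) R ⊆ (π, N) R`, in the form needed below. -/
theorem exists_pi_norm (hπ : ∀ h : H, h • π = π) (hm : maximalIdeal R = Ideal.span {π, t})
    (hprime : (Ideal.span {π} : Ideal R).IsPrime) (ht : t ∉ (Ideal.span {π} : Ideal R))
    (a b : R) : ∃ a' b' : R, π * a + t ^ Fintype.card H * b = π * a' + normElt H t * b' := by
  obtain ⟨v, c, hv, hN⟩ := exists_normElt_eq (H := H) hπ hm hprime ht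
  obtain ⟨w, hw⟩ := isUnit_iff_exists_inv.1 hv
  refine ⟨a - w * c * b, w * b, ?_⟩
  rw [hN]
  linear_combination (-(t ^ Fintype.card H * b)) * hw

/-- (Nakayama) `R = Σ_{i<n} S t^i`. -/
theorem exists_aeval_eq (hπ : ∀ h : H, h • π = π) (hm : maximalIdeal R = Ideal.span {π, t})
    (hprime : (Ideal.span {π} : Ideal R).IsPrime) (ht : t ∉ (Ideal.span {π} : Ideal R))
    (hfin : Module.Finite (FixedPoints.subring R H) R)
    (hres : ∀ r : R, ∃ s ∈ FixedPoints.subring R H, r - s ∈ maximalIdeal R) (r : R) :
    ∃ p : (FixedPoints.subring R H)[X],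
      p ∈ degreeLT (FixedPoints.subring R H) (Fintype.card H) ∧ aeval t p = r := by
  set M : Submodule (FixedPoints.subring R H) R :=
    (degreeLT (FixedPoints.subring R H) (Fintype.card H)).map (aeval t).toLinearMap with hM
  have hle : (⊤ : Submodule (FixedPoints.subring R H) R) ≤ M := by
    refine Submodule.le_of_le_smul_of_le_jacobson_bot (I := maxS H R) hfin.fg_top
      maxS_le_jacobson ?_
    intro x _
    obtain ⟨p, hp, a, b, hx⟩ := exists_decomp (H := H) hm hres (Fintype.card H) x
    obtain ⟨a', b', hab⟩ := exists_pi_norm (H := H) hπ hm hprime ht a b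
    rw [add_assoc, hab] at hx
    rw [hx]
    refine Submodule.add_mem_sup ⟨p, hp, rfl⟩ (Submodule.add_mem _ ?_ ?_)
    · have h1 : (⟨π, fun h => hπ h⟩ : FixedPoints.subring R H) ∈ maxS H R :=
        mem_maxS.2 (pi_mem_maximalIdeal hm)
      have := Submodule.smul_mem_smul h1 (Submodule.mem_top (x := a'))
      exact this
    · have h1 : (⟨normElt H t, normElt_mem t⟩ : FixedPoints.subring R H) ∈ maxS H R :=
        mem_maxS.2 (normElt_mem_maximalIdeal hm)
      have := Submodule.smul_mem_smul h1 (Submodule.mem_top (x := b'))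
      exact this
  obtain ⟨p, hp, hpr⟩ := hle (Submodule.mem_top (x := r))
  exact ⟨p, hp, hpr⟩

theorem smul_aeval (g : H) (p : (FixedPoints.subring R H)[X]) (x : R) :
    g • (aeval x p) = aeval (g • x) p := by
  induction p using Polynomial.induction_on with
  | C a =>
    have h1 : aeval (g • x) (C a) = algebraMap (FixedPoints.subring R H) R a := aeval_C _ _
    have h2 : aeval x (C a) = algebraMap (FixedPoints.subring R H) R a := aeval_C _ _
    rw [h1, h2]
    exact a.2 g
  | add p q hp hq => rw [map_add, map_add, smul_add, hp, hq]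
  | monomial n a _ =>
    have h1 : aeval (g • x) (C a) = algebraMap (FixedPoints.subring R H) R a := aeval_C _ _
    have h2 : aeval x (C a) = algebraMap (FixedPoints.subring R H) R a := aeval_C _ _
    rw [map_mul, map_mul, h1, h2, map_pow, map_pow, aeval_X, aeval_X, smul_mul', smul_pow']
    congr 1
    exact a.2 g

theorem smul_injective_of_generates [FaithfulSMul H R]
    (hall : ∀ r : R, ∃ p : (FixedPoints.subring R H)[X], aeval t p = r) :
    Function.Injective (fun h : H => h • t) := by
  intro h₁ h₂ h12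
  have h12' : h₁ • t = h₂ • t := h12
  have hg : (h₂⁻¹ * h₁) • t = t := by
    rw [mul_smul, h12', inv_smul_smul]
  have hall' : ∀ r : R, (h₂⁻¹ * h₁) • r = (1 : H) • r := by
    intro r
    obtain ⟨p, rfl⟩ := hall r
    rw [smul_aeval, hg, one_smul]
  have := FaithfulSMul.eq_of_smul_eq_smul hall'
  calc h₁ = h₂ * (h₂⁻¹ * h₁) := by group
    _ = h₂ := by rw [this, mul_one]

/-- `1, t, …, t^(n-1)` are linearly independent over `S`. -/
theorem eq_zero_of_aeval_eq_zero [FaithfulSMul H R]
    (hall : ∀ r : R, ∃ p : (FixedPoints.subring R H)[X], aeval t p = r)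
    {p : (FixedPoints.subring R H)[X]}
    (hp : p ∈ degreeLT (FixedPoints.subring R H) (Fintype.card H)) (h0 : aeval t p = 0) :
    p = 0 := by
  by_contra hne
  have hinj : Function.Injective (algebraMap (FixedPoints.subring R H) R) :=
    Subtype.val_injective
  have hdeg : (p.map (algebraMap (FixedPoints.subring R H) R)).natDegree < Fintype.card H := by
    refine lt_of_le_of_lt natDegree_map_le ?_
    rw [mem_degreeLT] at hp
    exact (natDegree_lt_iff_degree_lt hne).2 hp
  have heval : ∀ h : H, (p.map (algebraMap (FixedPoints.subring R H) R)).eval (h • t) = 0 := by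
    intro h
    rw [eval_map_algebraMap, ← smul_aeval, h0, smul_zero]
  have h1 := eq_zero_of_natDegree_lt_card_of_eval_eq_zero _
    (smul_injective_of_generates hall) heval hdeg
  exact hne (map_injective _ hinj (by rw [h1, Polynomial.map_zero]))

/-- **(T3), local form.**  `S ∩ 𝔪_R = (π, N) S`: every element of `S = R^H` lying in the maximal
ideal of `R` is `π a + N b` with `a, b ∈ S`. -/
theorem mem_span_pi_norm [FaithfulSMul H R] (hπ : ∀ h : H, h • π = π)
    (hm : maximalIdeal R = Ideal.span {π, t})
    (hprime : (Ideal.span {π} : Ideal R).IsPrime) (ht : t ∉ (Ideal.span {π} : Ideal R))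
    (hfin : Module.Finite (FixedPoints.subring R H) R)
    (hres : ∀ r : R, ∃ s ∈ FixedPoints.subring R H, r - s ∈ maximalIdeal R)
    {x : R} (hxS : x ∈ FixedPoints.subring R H) (hxm : x ∈ maximalIdeal R) :
    ∃ a ∈ FixedPoints.subring R H, ∃ b ∈ FixedPoints.subring R H,
      x = π * a + normElt H t * b := by
  have hall := exists_aeval_eq (H := H) hπ hm hprime ht hfin hres
  have hall' : ∀ r : R, ∃ p : (FixedPoints.subring R H)[X], aeval t p = r :=
    fun r => let ⟨p, _, hp⟩ := hall r; ⟨p, hp⟩
  have hn : 0 < Fintype.card H := Fintype.card_pos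
  obtain ⟨n, hn'⟩ : ∃ n, Fintype.card H = n + 1 := ⟨Fintype.card H - 1, by omega⟩
  rw [hm] at hxm
  obtain ⟨α, β, hαβ⟩ := Ideal.mem_span_pair.1 hxm
  obtain ⟨A, B, hAB⟩ := exists_pi_norm (H := H) hπ hm hprime ht (α * t ^ n) β
  obtain ⟨pA, hpA, hA⟩ := hall A
  obtain ⟨pB, hpB, hB⟩ := hall B
  -- `x t^n = π A + N B`
  have hx : x * t ^ n = π * A + normElt H t * B := by
    rw [← hAB, hn', ← hαβ]
    ring
  set xS : FixedPoints.subring R H := ⟨x, hxS⟩ with hxS'
  set πS : FixedPoints.subring R H := ⟨π, fun h => hπ h⟩ with hπS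
  set NS : FixedPoints.subring R H := ⟨normElt H t, normElt_mem t⟩ with hNS
  have hpoly : C xS * X ^ n - (C πS * pA + C NS * pB) = 0 := by
    apply eq_zero_of_aeval_eq_zero hall'
    · refine Submodule.sub_mem _ ?_ (Submodule.add_mem _ ?_ ?_)
      · rw [mem_degreeLT, hn']
        refine lt_of_le_of_lt (degree_C_mul_X_pow_le n _) ?_
        exact_mod_cast Nat.lt_succ_self n
      · rw [C_mul']
        exact Submodule.smul_mem _ _ hpA
      · rw [C_mul']
        exact Submodule.smul_mem _ _ hpB
    · rw [map_sub, map_add, map_mul, map_mul, map_mul, aeval_C, aeval_C, aeval_C, map_pow,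
        aeval_X, hA, hB]
      have e1 : algebraMap (FixedPoints.subring R H) R xS = x := rfl
      have e2 : algebraMap (FixedPoints.subring R H) R πS = π := rfl
      have e3 : algebraMap (FixedPoints.subring R H) R NS = normElt H t := rfl
      rw [e1, e2, e3, hx, sub_self]
  have hcoef := congrArg (fun q => coeff q n) hpoly
  simp only [coeff_sub, coeff_add, coeff_C_mul, coeff_X_pow, coeff_zero] at hcoef
  rw [if_pos trivial, mul_one] at hcoef
  refine ⟨pA.coeff n, (pA.coeff n).2, pB.coeff n, (pB.coeff n).2, ?_⟩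
  have := congrArg (Subtype.val) (sub_eq_zero.1 hcoef)
  simpa using this

/-- `S = R^H` is a local ring. -/
theorem isLocalRing_fixed : IsLocalRing (FixedPoints.subring R H) := by
  refine IsLocalRing.of_isUnit_or_isUnit_one_sub_self fun a => ?_
  rcases IsLocalRing.isUnit_or_isUnit_one_sub_self (a : R) with h | h
  · exact Or.inl (isUnit_subring_of_isUnit h)
  · exact Or.inr (isUnit_subring_of_isUnit (s := 1 - a) h)

/-- The maximal ideal of `S = R^H` is `S ∩ 𝔪_R`. -/
theorem maximalIdeal_fixed :
    @maximalIdeal (FixedPoints.subring R H) _ isLocalRing_fixed = maxS H R := by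
  let _ := isLocalRing_fixed (R := R) (H := H)
  ext a
  rw [mem_maximalIdeal, mem_nonunits_iff, mem_maxS, mem_maximalIdeal, mem_nonunits_iff]
  constructor
  · intro h hu
    exact h (isUnit_subring_of_isUnit hu)
  · intro h hu
    exact h (hu.map (algebraMap (FixedPoints.subring R H) R))

/-- **(T3), local form, ideal version.**  The maximal ideal `S ∩ 𝔪_R` of `S = R^H` is generated
by `π` and the norm `N = ∏ h • t`. -/
theorem maxS_eq_span [FaithfulSMul H R] (hπ : ∀ h : H, h • π = π)
    (hm : maximalIdeal R = Ideal.span {π, t})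
    (hprime : (Ideal.span {π} : Ideal R).IsPrime) (ht : t ∉ (Ideal.span {π} : Ideal R))
    (hfin : Module.Finite (FixedPoints.subring R H) R)
    (hres : ∀ r : R, ∃ s ∈ FixedPoints.subring R H, r - s ∈ maximalIdeal R) :
    maxS H R = Ideal.span {(⟨π, fun h => hπ h⟩ : FixedPoints.subring R H),
      (⟨normElt H t, normElt_mem t⟩ : FixedPoints.subring R H)} := by
  apply le_antisymm
  · intro x hx
    obtain ⟨a, ha, b, hb, hab⟩ := mem_span_pi_norm hπ hm hprime ht hfin hres x.2 (mem_maxS.1 hx)
    rw [Ideal.mem_span_pair]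
    refine ⟨⟨a, ha⟩, ⟨b, hb⟩, Subtype.ext ?_⟩
    simp only [Subring.coe_add, Subring.coe_mul]
    rw [hab]
    ring
  · rw [Ideal.span_le]
    intro x hx
    rcases hx with rfl | rfl
    · exact mem_maxS.2 (pi_mem_maximalIdeal hm)
    · exact mem_maxS.2 (normElt_mem_maximalIdeal hm)

/-- `R` is generated by `1, t, …, t^(n-1)` over `S`, uniquely: existence and uniqueness of the
expansion. -/
theorem existsUnique_aeval_eq [FaithfulSMul H R] (hπ : ∀ h : H, h • π = π)
    (hm : maximalIdeal R = Ideal.span {π, t})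
    (hprime : (Ideal.span {π} : Ideal R).IsPrime) (ht : t ∉ (Ideal.span {π} : Ideal R))
    (hfin : Module.Finite (FixedPoints.subring R H) R)
    (hres : ∀ r : R, ∃ s ∈ FixedPoints.subring R H, r - s ∈ maximalIdeal R) (r : R) :
    ∃! p : (FixedPoints.subring R H)[X],
      p ∈ degreeLT (FixedPoints.subring R H) (Fintype.card H) ∧ aeval t p = r := by
  have hall := exists_aeval_eq (H := H) hπ hm hprime ht hfin hres
  have hall' : ∀ r : R, ∃ p : (FixedPoints.subring R H)[X], aeval t p = r :=
    fun r => let ⟨p, _, hp⟩ := hall r; ⟨p, hp⟩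
  obtain ⟨p, hp, hpr⟩ := hall r
  refine ⟨p, ⟨hp, hpr⟩, fun q ⟨hq, hqr⟩ => ?_⟩
  have := eq_zero_of_aeval_eq_zero hall' (Submodule.sub_mem _ hq hp)
    (by rw [map_sub, hqr, hpr, sub_self])
  exact sub_eq_zero.1 this

/-- `S ∩ πR = πS`: a fixed element divisible by `π` in `R` is divisible by `π` in `S`. -/
theorem exists_fixed_of_mem_span_pi (hπ : ∀ h : H, h • π = π) {x : R}
    (hx : x ∈ FixedPoints.subring R H) (hxπ : x ∈ (Ideal.span {π} : Ideal R)) :
    ∃ a ∈ FixedPoints.subring R H, x = π * a := by
  obtain ⟨r, rfl⟩ := Ideal.mem_span_singleton'.1 hxπ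
  by_cases h0 : π = 0
  · exact ⟨0, Subring.zero_mem _, by rw [h0]; ring⟩
  refine ⟨r, fun g => ?_, mul_comm _ _⟩
  have h1 : g • (r * π) = r * π := hx g
  rw [smul_mul', hπ g] at h1
  exact mul_right_cancel₀ h0 h1

/-- `πS` is a prime ideal of `S = R^H` (so that `S/π` is a domain). -/
theorem span_pi_fixed_isPrime (hπ : ∀ h : H, h • π = π)
    (hprime : (Ideal.span {π} : Ideal R).IsPrime) :
    (Ideal.span {(⟨π, fun h => hπ h⟩ : FixedPoints.subring R H)} :
      Ideal (FixedPoints.subring R H)).IsPrime := by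
  have hcomap : (Ideal.span {(⟨π, fun h => hπ h⟩ : FixedPoints.subring R H)} :
      Ideal (FixedPoints.subring R H)) =
      Ideal.comap (algebraMap (FixedPoints.subring R H) R) (Ideal.span {π}) := by
    ext x
    rw [Ideal.mem_comap, Ideal.mem_span_singleton']
    constructor
    · rintro ⟨a, rfl⟩
      exact Ideal.mem_span_singleton'.2 ⟨a, rfl⟩
    · intro hx
      obtain ⟨a, ha, hxa⟩ := exists_fixed_of_mem_span_pi hπ x.2 hx
      exact ⟨⟨a, ha⟩, Subtype.ext (by
        simp only [Subring.coe_mul]
        rw [mul_comm]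
        exact hxa.symm)⟩
  rw [hcomap]
  exact Ideal.comap_isPrime _ _

/-- The norm `N` is not divisible by `π` in `S` (so that `N` is a uniformiser of `S/π`). -/
theorem normElt_notMem_span_pi (hπ : ∀ h : H, h • π = π)
    (hm : maximalIdeal R = Ideal.span {π, t})
    (hprime : (Ideal.span {π} : Ideal R).IsPrime) (ht : t ∉ (Ideal.span {π} : Ideal R)) :
    (⟨normElt H t, normElt_mem t⟩ : FixedPoints.subring R H) ∉
      (Ideal.span {(⟨π, fun h => hπ h⟩ : FixedPoints.subring R H)} :
        Ideal (FixedPoints.subring R H)) := by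
  intro hN
  obtain ⟨a, ha⟩ := Ideal.mem_span_singleton'.1 hN
  have ha' : (a : R) * π = normElt H t := congrArg Subtype.val ha
  obtain ⟨v, c, hv, hvc⟩ := exists_normElt_eq (H := H) hπ hm hprime ht
  have h1 : v * t ^ Fintype.card H ∈ (Ideal.span {π} : Ideal R) := by
    have : v * t ^ Fintype.card H = ((a : R) - c) * π := by
      rw [sub_mul, ha', hvc]
      ring
    rw [this]
    exact Ideal.mem_span_singleton'.2 ⟨_, rfl⟩
  rcases hprime.mem_or_mem h1 with h2 | h2
  · exact hprime.ne_top (Ideal.eq_top_of_isUnit_mem _ h2 hv)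
  · exact ht (hprime.mem_of_pow_mem _ h2)

/-- **(T3), output = input shape.**  `S = R^H` is a local ring whose maximal ideal is generated
by `π` and `N = ∏ h • t`, with `πS` prime and `N ∉ πS`; i.e. `S` satisfies again the hypotheses
`(b)`, `(c)` made on `R` (`S/π` is a discrete valuation ring with uniformiser `N`). -/
theorem fixed_shape [FaithfulSMul H R] (hπ : ∀ h : H, h • π = π)
    (hm : maximalIdeal R = Ideal.span {π, t})
    (hprime : (Ideal.span {π} : Ideal R).IsPrime) (ht : t ∉ (Ideal.span {π} : Ideal R))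
    (hfin : Module.Finite (FixedPoints.subring R H) R)
    (hres : ∀ r : R, ∃ s ∈ FixedPoints.subring R H, r - s ∈ maximalIdeal R) :
    ∃ _ : IsLocalRing (FixedPoints.subring R H),
      maximalIdeal (FixedPoints.subring R H) =
        Ideal.span {(⟨π, fun h => hπ h⟩ : FixedPoints.subring R H),
          (⟨normElt H t, normElt_mem t⟩ : FixedPoints.subring R H)} ∧
      (Ideal.span {(⟨π, fun h => hπ h⟩ : FixedPoints.subring R H)} :
        Ideal (FixedPoints.subring R H)).IsPrime ∧
      (⟨normElt H t, normElt_mem t⟩ : FixedPoints.subring R H) ∉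
        (Ideal.span {(⟨π, fun h => hπ h⟩ : FixedPoints.subring R H)} :
          Ideal (FixedPoints.subring R H)) := by
  refine ⟨isLocalRing_fixed, ?_, span_pi_fixed_isPrime hπ hprime,
    normElt_notMem_span_pi hπ hm hprime ht⟩
  rw [maximalIdeal_fixed]
  exact maxS_eq_span hπ hm hprime ht hfin hres

end Main

end Fermat.Agent.S18x.CA.H14
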