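import Mathlib

/-!
# S18 / [CA] (T1a): freeness from a regular pair

`A` a noetherian local ring whose maximal ideal is generated by two elements `π, s`, `M` a finite
`A`-module on which `π, s` is a regular sequence.  Then `M` is free.
-/

set_option autoImplicit false

namespace Fermat.Agent.S18x.CA.H16

open IsLocalRing

section Descend

variable {A : Type*} [CommRing A] {M : Type*} [AddCommGroup M] [Module A M]

/-- One step of the descent: independence modulo `(J + (t), N + t M)` gives, for a relation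
modulo `N`, coefficients modulo `J + (t ^ n)` for every `n`. -/
theorem indep_descend {ι : Type*} [Fintype ι] (J : Ideal A) (N : Submodule A M) (t : A)
    (hJN : ∀ a ∈ J, ∀ m : M, a • m ∈ N)
    (ht : ∀ m : M, t • m ∈ N → m ∈ N)
    (b : ι → M)
    (H : ∀ a : ι → A, ∑ i, a i • b i ∈ N → ∀ i, ∃ c : A, a i - t * c ∈ J)
    (a : ι → A) (ha : ∑ i, a i • b i ∈ N) (n : ℕ) :
    ∃ c : ι → A, (∀ i, a i - t ^ n * c i ∈ J) ∧ ∑ i, c i • b i ∈ N := by
  induction n with
  | zero => exact ⟨a, fun i => by simp, ha⟩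
  | succ n ih =>
    obtain ⟨c, hc, hcN⟩ := ih
    choose c' hc' using H c hcN
    refine ⟨c', fun i => ?_, ?_⟩
    · have h1 : a i - t ^ (n + 1) * c' i = (a i - t ^ n * c i) + t ^ n * (c i - t * c' i) := by
        ring
      rw [h1]
      exact J.add_mem (hc i) (J.mul_mem_left _ (hc' i))
    · apply ht
      have h2 : t • ∑ i, c' i • b i = ∑ i, c i • b i - ∑ i, (c i - t * c' i) • b i := by
        rw [Finset.smul_sum, ← Finset.sum_sub_distrib]
        refine Finset.sum_congr rfl fun i _ => ?_
        rw [sub_smul, sub_sub_cancel, mul_smul]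
      rw [h2]
      exact N.sub_mem hcN (N.sum_mem fun i _ => hJN _ (hc' i) _)

/-- Krull intersection in element form: in a noetherian local ring, for `t` in the maximal
ideal, `⋂ (J + (t ^ n)) = J`. -/
theorem mem_of_forall_pow [IsLocalRing A] [IsNoetherianRing A] (J : Ideal A) (t : A)
    (ht : t ∈ maximalIdeal A) (x : A) (hx : ∀ n : ℕ, ∃ c : A, x - t ^ n * c ∈ J) : x ∈ J := by
  have hne : (Ideal.span {t} : Ideal A) ≠ ⊤ := by
    intro h
    have : (Ideal.span {t} : Ideal A) ≤ maximalIdeal A := by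
      rw [Ideal.span_le]
      simpa using ht
    rw [h] at this
    exact (maximalIdeal.isMaximal A).ne_top (top_le_iff.mp this)
  have hK := Ideal.iInf_pow_smul_eq_bot_of_isLocalRing (R := A) (I := Ideal.span {t})
    (M := A ⧸ J) hne
  have hmem : (Ideal.Quotient.mk J x : A ⧸ J) ∈
      (⨅ i : ℕ, (Ideal.span {t} : Ideal A) ^ i • (⊤ : Submodule A (A ⧸ J))) := by
    rw [Submodule.mem_iInf]
    intro n
    obtain ⟨c, hc⟩ := hx n
    have h1 : (Ideal.Quotient.mk J x : A ⧸ J) = (t ^ n) • (Ideal.Quotient.mk J c : A ⧸ J) := by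
      have : Ideal.Quotient.mk J x = Ideal.Quotient.mk J (t ^ n * c) :=
        Ideal.Quotient.eq.mpr hc
      rw [this]
      rfl
    rw [h1]
    refine Submodule.smul_mem_smul ?_ Submodule.mem_top
    rw [Ideal.span_singleton_pow]
    exact Ideal.mem_span_singleton_self _
  rw [hK] at hmem
  exact Ideal.Quotient.eq_zero_iff_mem.mp ((Submodule.mem_bot A).mp hmem)

/-- Independence modulo `(J + (t), N + t M)` implies independence modulo `(J, N)`. -/
theorem indep_of_descend [IsLocalRing A] [IsNoetherianRing A] {ι : Type*} [Fintype ι]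
    (J : Ideal A) (N : Submodule A M) (t : A) (htm : t ∈ maximalIdeal A)
    (hJN : ∀ a ∈ J, ∀ m : M, a • m ∈ N)
    (ht : ∀ m : M, t • m ∈ N → m ∈ N)
    (b : ι → M)
    (H : ∀ a : ι → A, ∑ i, a i • b i ∈ N → ∀ i, ∃ c : A, a i - t * c ∈ J)
    (a : ι → A) (ha : ∑ i, a i • b i ∈ N) (i : ι) : a i ∈ J := by
  apply mem_of_forall_pow J t htm
  intro n
  obtain ⟨c, hc, -⟩ := indep_descend J N t hJN ht b H a ha n
  exact ⟨c i, hc i⟩

end Descend

section Free

variable {A : Type*} [CommRing A] [IsLocalRing A] [IsNoetherianRing A]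
variable {M : Type*} [AddCommGroup M] [Module A M] [Module.Finite A M]

omit [IsNoetherianRing A] in
/-- A family lifting a basis of `M / 𝔪 M`: it spans `M` and is independent modulo `𝔪`. -/
theorem exists_lift_basis :
    ∃ (n : ℕ) (b : Fin n → M), Submodule.span A (Set.range b) = ⊤ ∧
      ∀ a : Fin n → A, ∑ i, a i • b i ∈ (maximalIdeal A • ⊤ : Submodule A M) →
        ∀ i, a i ∈ maximalIdeal A := by
  classical
  let Q : Submodule A M := maximalIdeal A • ⊤
  let _ : Field (A ⧸ maximalIdeal A) := Ideal.Quotient.field (maximalIdeal A)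
  let _ : Module (A ⧸ maximalIdeal A) (M ⧸ Q) :=
    inferInstanceAs (Module (A ⧸ maximalIdeal A) (M ⧸ maximalIdeal A • (⊤ : Submodule A M)))
  have _ : IsScalarTower A (A ⧸ maximalIdeal A) (M ⧸ Q) :=
    inferInstanceAs (IsScalarTower A (A ⧸ maximalIdeal A)
      (M ⧸ maximalIdeal A • (⊤ : Submodule A M)))
  have _ : Module.Finite (A ⧸ maximalIdeal A) (M ⧸ Q) :=
    Module.Finite.of_restrictScalars_finite A (A ⧸ maximalIdeal A) (M ⧸ Q)
  let B := Module.finBasis (A ⧸ maximalIdeal A) (M ⧸ Q)
  have hsurj := Submodule.mkQ_surjective Q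
  choose g hg using hsurj
  refine ⟨_, fun i => g (B i), ?_, ?_⟩
  · rw [← IsLocalRing.map_mkQ_eq_top, Submodule.map_span, ← Set.range_comp]
    have h1 : (⇑(Submodule.mkQ (maximalIdeal A • (⊤ : Submodule A M))) ∘ fun i => g (B i)) =
        fun i => B i := by
      funext i
      exact hg (B i)
    rw [h1, ← Submodule.restrictScalars_span A (A ⧸ maximalIdeal A)
      Ideal.Quotient.mk_surjective, Submodule.restrictScalars_eq_top_iff]
    exact B.span_eq
  · intro a ha i
    have h0 : Submodule.mkQ Q (∑ i, a i • g (B i)) = 0 := by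
      rw [Submodule.mkQ_apply, Submodule.Quotient.mk_eq_zero]
      exact ha
    rw [map_sum] at h0
    have h1 : ∑ i, (Ideal.Quotient.mk (maximalIdeal A) (a i)) • B i = 0 := by
      rw [← h0]
      refine Finset.sum_congr rfl fun i _ => ?_
      rw [map_smul, hg (B i)]
      rfl
    have h2 := (Fintype.linearIndependent_iff.mp B.linearIndependent) _ h1 i
    exact Ideal.Quotient.eq_zero_iff_mem.mp h2

/-- **(T1a)** A finite module over a noetherian local ring with maximal ideal `(π, s)` on which
`π, s` is a regular sequence is free. -/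
theorem free_of_regular_pair (π s : A) (hm : maximalIdeal A = Ideal.span {π, s})
    (hπ : ∀ m : M, π • m = 0 → m = 0)
    (hs : ∀ m m' : M, s • m = π • m' → ∃ m'' : M, m = π • m'') :
    Module.Free A M := by
  classical
  obtain ⟨n, b, hspan, hind⟩ := exists_lift_basis (A := A) (M := M)
  have hπm : π ∈ maximalIdeal A := by
    rw [hm]; exact Ideal.subset_span (by simp)
  have hsm : s ∈ maximalIdeal A := by
    rw [hm]; exact Ideal.subset_span (by simp)
  -- the submodule `π M`
  let N : Submodule A M := LinearMap.range (LinearMap.lsmul A M π)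
  have hN : ∀ m : M, m ∈ N ↔ ∃ m' : M, m = π • m' := by
    intro m
    constructor
    · rintro ⟨m', rfl⟩; exact ⟨m', rfl⟩
    · rintro ⟨m', rfl⟩; exact ⟨m', rfl⟩
  have hNQ : N ≤ (maximalIdeal A • ⊤ : Submodule A M) := by
    rintro m hmN
    obtain ⟨m', rfl⟩ := (hN m).mp hmN
    exact Submodule.smul_mem_smul hπm Submodule.mem_top
  -- Step A
  have hA : ∀ a : Fin n → A, ∑ i, a i • b i ∈ N → ∀ i, a i ∈ Ideal.span {π} := by
    intro a ha i
    refine indep_of_descend (Ideal.span {π}) N s hsm ?_ ?_ b ?_ a ha i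
    · intro x hx m
      obtain ⟨y, rfl⟩ := Ideal.mem_span_singleton'.mp hx
      rw [(hN _)]
      exact ⟨y • m, by rw [smul_smul, mul_comm]⟩
    · intro m hmN
      obtain ⟨m', hm'⟩ := (hN _).mp hmN
      obtain ⟨m'', rfl⟩ := hs m m' hm'
      exact (hN _).mpr ⟨m'', rfl⟩
    · intro a' ha' j
      have h1 := hind a' (hNQ ha') j
      rw [hm, Ideal.mem_span_pair] at h1
      obtain ⟨x, y, hxy⟩ := h1
      refine ⟨y, ?_⟩
      rw [Ideal.mem_span_singleton']
      exact ⟨x, by rw [← hxy]; ring⟩
  -- Step B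
  have hB : ∀ a : Fin n → A, ∑ i, a i • b i = 0 → ∀ i, a i = 0 := by
    intro a ha i
    have := indep_of_descend (⊥ : Ideal A) (⊥ : Submodule A M) π hπm ?_ ?_ b ?_ a
      (by rw [ha]; exact Submodule.zero_mem _) i
    · simpa using this
    · intro x hx m
      rw [Ideal.mem_bot] at hx
      rw [hx, zero_smul]
      exact Submodule.zero_mem _
    · intro m hm0
      rw [Submodule.mem_bot] at hm0 ⊢
      exact hπ m hm0
    · intro a' ha' j
      rw [Submodule.mem_bot] at ha'
      have h1 := hA a' (by rw [ha']; exact Submodule.zero_mem _) j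
      obtain ⟨y, hy⟩ := Ideal.mem_span_singleton'.mp h1
      refine ⟨y, ?_⟩
      rw [Ideal.mem_bot, ← hy]
      ring
  have hli : LinearIndependent A b := Fintype.linearIndependent_iff.mpr hB
  exact Module.Free.of_basis (Module.Basis.mk hli (by rw [hspan]))

end Free

end Fermat.Agent.S18x.CA.H16
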