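import Mathlib
import Fermat.Agent.S18x.CA.H25_Purity

/-!
# Localisation wiring (S18, [IG-ASM])

`A → B` an injective ring homomorphism of domains, `𝔪` a prime of `A`,
`A₀ := Localization.AtPrime 𝔪`, `B₀ := Localization (Algebra.algebraMapSubmonoid B 𝔪.primeCompl)`.
This file collects, as named lemmas, the instances and transfer statements needed to apply
local theorems (`H16.exists_basis_of_normal_of_finite`, `H15.h15_principle`, ...) to `A₀ → B₀`
and to come back to the global ring `B`.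
-/

namespace Fermat.Agent.S18x.CA.H25L

open Module Fermat.Agent.S18x.CA.H25 Fermat.Agent.S18x.CA.H25F Fermat.Agent.S18x.CA.H25P

section Instances

variable {A : Type*} (B : Type*) [CommRing A] [IsDomain A] [CommRing B] [IsDomain B]
  [Algebra A B] [FaithfulSMul A B] (𝔪 : Ideal A) [𝔪.IsPrime]

local notation "A₀" => Localization.AtPrime 𝔪
local notation "B₀" => Localization (Algebra.algebraMapSubmonoid B 𝔪.primeCompl)

theorem le_nonZeroDivisors_top :
    Algebra.algebraMapSubmonoid B 𝔪.primeCompl ≤ nonZeroDivisors B :=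
  Submonoid.map_le_of_le_comap _ <| 𝔪.primeCompl_le_nonZeroDivisors.trans
    (nonZeroDivisors_le_comap_nonZeroDivisors_of_injective _
      (FaithfulSMul.algebraMap_injective A B))

omit [IsDomain B] [FaithfulSMul A B] in
theorem isDomain_base : IsDomain A₀ :=
  IsLocalization.isDomain_of_le_nonZeroDivisors _ 𝔪.primeCompl_le_nonZeroDivisors

omit [IsDomain A] [IsDomain B] [FaithfulSMul A B] in
theorem isNoetherianRing_base [IsNoetherianRing A] : IsNoetherianRing A₀ :=
  IsLocalization.isNoetherianRing 𝔪.primeCompl A₀ inferInstance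

omit [IsDomain B] [FaithfulSMul A B] in
theorem isIntegrallyClosed_base [IsIntegrallyClosed A] : IsIntegrallyClosed A₀ :=
  isIntegrallyClosed_of_isLocalization A₀ 𝔪.primeCompl 𝔪.primeCompl_le_nonZeroDivisors

omit [IsDomain B] [FaithfulSMul A B] in
theorem injective_base : Function.Injective (algebraMap A A₀) :=
  IsLocalization.injective A₀ 𝔪.primeCompl_le_nonZeroDivisors

theorem isDomain_top : IsDomain B₀ :=
  IsLocalization.isDomain_of_le_nonZeroDivisors _ (le_nonZeroDivisors_top B 𝔪)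

theorem injective_top : Function.Injective (algebraMap B B₀) :=
  IsLocalization.injective B₀ (le_nonZeroDivisors_top B 𝔪)

theorem isIntegrallyClosed_top [IsIntegrallyClosed B] : IsIntegrallyClosed B₀ :=
  isIntegrallyClosed_of_isLocalization B₀ _ (le_nonZeroDivisors_top B 𝔪)

omit [IsDomain A] [IsDomain B] [FaithfulSMul A B] in
theorem isNoetherianRing_top [IsNoetherianRing B] : IsNoetherianRing B₀ :=
  IsLocalization.isNoetherianRing (Algebra.algebraMapSubmonoid B 𝔪.primeCompl) B₀ inferInstance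

omit [IsDomain A] [IsDomain B] [FaithfulSMul A B] in
theorem finite_top [Module.Finite A B] : Module.Finite A₀ B₀ :=
  .of_isLocalization A B 𝔪.primeCompl

omit [IsDomain A] [IsDomain B] in
theorem injective_algebraMap_top : Function.Injective (algebraMap A₀ B₀) :=
  localizationAlgebra_injective (Rₘ := A₀) (Sₘ := B₀) (FaithfulSMul.algebraMap_injective A B)

omit [IsDomain A] [IsDomain B] in
theorem faithfulSMul_top : FaithfulSMul A₀ B₀ :=
  (faithfulSMul_iff_algebraMap_injective A₀ B₀).mpr (injective_algebraMap_top B 𝔪)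

end Instances

section Generators

variable {A : Type*} [CommRing A] [IsDomain A] (𝔪 : Ideal A) [𝔪.IsPrime]

local notation "A₀" => Localization.AtPrime 𝔪

omit [IsDomain A] in
/-- Generators of the maximal ideal of the localisation. -/
theorem maximalIdeal_eq (π t : A) (hm : 𝔪 = Ideal.span {π, t}) :
    IsLocalRing.maximalIdeal A₀ = Ideal.span {algebraMap A A₀ π, algebraMap A A₀ t} := by
  rw [← Localization.AtPrime.map_eq_maximalIdeal,
    congrArg (Ideal.map (algebraMap A A₀)) hm, Ideal.map_span, Set.image_pair]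

/-- A prime element of `A` lying in `𝔪` stays prime in the localisation. -/
theorem prime_algebraMap (p : A) (hp : Prime p) (hp𝔪 : p ∈ 𝔪) : Prime (algebraMap A A₀ p) := by
  have hprime : (Ideal.span {p} : Ideal A).IsPrime :=
    (Ideal.span_singleton_prime hp.ne_zero).mpr hp
  have hle : (Ideal.span {p} : Ideal A) ≤ 𝔪 := (Ideal.span_singleton_le_iff_mem 𝔪).mpr hp𝔪
  have hdisj : Disjoint (𝔪.primeCompl : Set A) ((Ideal.span {p} : Ideal A) : Set A) :=
    Set.disjoint_left.mpr (fun a ha hap => ha (hle hap))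
  have hp0 : algebraMap A A₀ p ≠ 0 := fun h =>
    hp.ne_zero (injective_base 𝔪 (by rw [h, map_zero]))
  rw [← Ideal.span_singleton_prime hp0, ← Set.image_singleton, ← Ideal.map_span]
  exact IsLocalization.isPrime_of_isPrime_disjoint 𝔪.primeCompl A₀ _ hprime hdisj

omit [IsDomain A] in
/-- Divisibility by a prime element of `𝔪` can be tested in the localisation. -/
theorem dvd_of_algebraMap_dvd (p a : A) (hp : Prime p) (hp𝔪 : p ∈ 𝔪)
    (h : algebraMap A A₀ p ∣ algebraMap A A₀ a) : p ∣ a := by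
  have hprime : (Ideal.span {p} : Ideal A).IsPrime :=
    (Ideal.span_singleton_prime hp.ne_zero).mpr hp
  have hle : (Ideal.span {p} : Ideal A) ≤ 𝔪 := (Ideal.span_singleton_le_iff_mem 𝔪).mpr hp𝔪
  have hdisj : Disjoint (𝔪.primeCompl : Set A) ((Ideal.span {p} : Ideal A) : Set A) :=
    Set.disjoint_left.mpr (fun a ha hap => ha (hle hap))
  have h1 : algebraMap A A₀ a ∈ Ideal.map (algebraMap A A₀) (Ideal.span {p}) := by
    rw [Ideal.map_span, Set.image_singleton, Ideal.mem_span_singleton]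
    exact h
  have h2 : a ∈ (Ideal.map (algebraMap A A₀) (Ideal.span {p})).under A := h1
  rw [IsLocalization.under_map_of_isPrime_disjoint 𝔪.primeCompl A₀ hprime hdisj] at h2
  exact Ideal.mem_span_singleton.mp h2

omit [IsDomain A] in
theorem not_mem_span_algebraMap (p t : A) (hp : Prime p) (hp𝔪 : p ∈ 𝔪)
    (ht : t ∉ Ideal.span {p}) : algebraMap A A₀ t ∉ Ideal.span {algebraMap A A₀ p} := by
  intro h
  exact ht (Ideal.mem_span_singleton.mpr
    (dvd_of_algebraMap_dvd 𝔪 p t hp hp𝔪 (Ideal.mem_span_singleton.mp h)))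

end Generators

section Basis

variable {A : Type*} (B : Type*) [CommRing A] [IsDomain A] [CommRing B] [IsDomain B]
  [Algebra A B] [FaithfulSMul A B] (𝔪 : Ideal A) [𝔪.IsPrime]

local notation "A₀" => Localization.AtPrime 𝔪
local notation "B₀" => Localization (Algebra.algebraMapSubmonoid B 𝔪.primeCompl)

/-- **(L3)** `B₀` is free over `A₀` (helper16's (T1) after localisation). -/
theorem exists_basis [IsNoetherianRing A] [IsIntegrallyClosed A] [IsIntegrallyClosed B]
    [Module.Finite A B] (π t : A) (hm : 𝔪 = Ideal.span {π, t}) (hπ : Prime π)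
    (ht : t ∉ Ideal.span {π}) : ∃ n : ℕ, Nonempty (Basis (Fin n) A₀ B₀) := by
  have hπ𝔪 : π ∈ 𝔪 := by rw [hm]; exact Ideal.subset_span (by simp)
  have := isDomain_base 𝔪
  have := isNoetherianRing_base 𝔪
  have := isIntegrallyClosed_base 𝔪
  have := isDomain_top B 𝔪
  have := isIntegrallyClosed_top B 𝔪
  have := finite_top B 𝔪
  have := faithfulSMul_top B 𝔪
  exact Fermat.Agent.S18x.CA.H16.exists_basis_of_normal_of_finite (B := B₀)
    (algebraMap A A₀ π) (algebraMap A A₀ t) (maximalIdeal_eq 𝔪 π t hm)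
    (prime_algebraMap 𝔪 π hπ hπ𝔪) (not_mem_span_algebraMap 𝔪 π t hπ hπ𝔪 ht)

end Basis

section Discriminant

variable {A : Type*} (B : Type*) [CommRing A] [CommRing B] [Algebra A B]
  (𝔪 : Ideal A) [𝔪.IsPrime]
variable {ι : Type*} [Fintype ι] [DecidableEq ι]

local notation "A₀" => Localization.AtPrime 𝔪
local notation "B₀" => Localization (Algebra.algebraMapSubmonoid B 𝔪.primeCompl)

/-- **(L4)** `hdisc` of PRINCIPLE (*) for the localised pair, from the GLOBAL vertical data: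
`π ∤ discr`. -/
theorem hdisc (b : Basis ι A₀ B₀) (π : A) (hπ𝔪 : π ∈ 𝔪)
    {K L : Type*} [Field K] [Field L] [Algebra K L] (f : A →+* K) (g : B →+* L)
    (hcomm : ∀ a, g (algebraMap A B a) = algebraMap K L (f a))
    (hfπ : f π = 0) (hf : ∀ a, f a = 0 → π ∣ a)
    (hK : ∀ c : K, ∃ a s : A, f s ≠ 0 ∧ c * f s = f a)
    (hg : ∀ x : B, g x = 0 → algebraMap A B π ∣ x)
    (hsep : ∀ x : B, IsSeparable K (g x)) :
    ¬ algebraMap A A₀ π ∣ Algebra.discr A₀ b := by
  have hker : RingHom.ker f = Ideal.span {π} := by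
    ext a
    rw [RingHom.mem_ker, Ideal.mem_span_singleton]
    exact ⟨hf a, fun ⟨c, hc⟩ => by rw [hc, map_mul, hfπ, zero_mul]⟩
  have hMf : ∀ a ∈ 𝔪.primeCompl, f a ≠ 0 := by
    intro a ha h0
    obtain ⟨c, rfl⟩ := hf a h0
    exact ha (𝔪.mul_mem_right c hπ𝔪)
  have hg' : ∀ x : B, g x = 0 → x ∈ Ideal.map (algebraMap A B) (RingHom.ker f) := by
    intro x hx0
    rw [hker, Ideal.map_span, Set.image_singleton, Ideal.mem_span_singleton]
    exact hg x hx0
  have := discr_not_mem_map_ker_of_separable 𝔪.primeCompl b f g hcomm hK hg' hsep hMf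
  rwa [hker, Ideal.map_span, Set.image_singleton, Ideal.mem_span_singleton] at this

/-- **(L5)** `hhor` in DISCRIMINANT form for a prime `𝔭₀` of the localisation, from the GLOBAL
element form (reduced fibre over `𝔭₀ ∩ A`, residue characteristic zero). -/
theorem hhor (b : Basis ι A₀ B₀) (𝔭₀ : Ideal A₀) [𝔭₀.IsPrime]
    (hchar : ∀ n : ℕ, n ≠ 0 → (n : A) ∉ 𝔭₀.comap (algebraMap A A₀))
    (hred : ∀ x : B, x * x ∈ (𝔭₀.comap (algebraMap A A₀)).map (algebraMap A B) →
      ∃ s : A, s ∉ 𝔭₀.comap (algebraMap A A₀) ∧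
        algebraMap A B s * x ∈ (𝔭₀.comap (algebraMap A A₀)).map (algebraMap A B)) :
    Algebra.discr A₀ b ∉ 𝔭₀ := by
  set 𝔭 : Ideal A := 𝔭₀.comap (algebraMap A A₀) with h𝔭def
  have h𝔭 : 𝔭.IsPrime := Ideal.comap_isPrime _ _
  have hmap : 𝔭.map (algebraMap A A₀) = 𝔭₀ := IsLocalization.map_under 𝔪.primeCompl A₀ 𝔭₀
  have h𝔭le : 𝔭 ≤ 𝔪 := by
    intro a ha
    by_contra ha'
    have hu : IsUnit (algebraMap A A₀ a) :=
      IsLocalization.map_units A₀ (⟨a, ha'⟩ : 𝔪.primeCompl)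
    exact (Ideal.IsPrime.ne_top ‹𝔭₀.IsPrime›) (Ideal.eq_top_of_isUnit_mem _ ha hu)
  let κ := FractionRing (A ⧸ 𝔭)
  let f₀ : A →+* κ := (algebraMap (A ⧸ 𝔭) κ).comp (Ideal.Quotient.mk 𝔭)
  have hinjκ : Function.Injective (algebraMap (A ⧸ 𝔭) κ) := IsFractionRing.injective _ _
  have hf₀ : ∀ a, f₀ a = 0 ↔ a ∈ 𝔭 := by
    intro a
    change algebraMap (A ⧸ 𝔭) κ (Ideal.Quotient.mk 𝔭 a) = 0 ↔ _
    rw [map_eq_zero_iff _ hinjκ, Ideal.Quotient.eq_zero_iff_mem]
  have hker₀ : RingHom.ker f₀ = 𝔭 := by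
    ext a; rw [RingHom.mem_ker, hf₀]
  have hcz : CharZero κ := by
    refine charZero_of_inj_zero (fun k hk => ?_)
    by_contra hk0
    have h1 : f₀ (k : A) = 0 := by rw [map_natCast]; exact hk
    exact hchar k hk0 ((hf₀ _).mp h1)
  have hK₀ : ∀ c : κ, ∃ a s : A, f₀ s ≠ 0 ∧ c * f₀ s = f₀ a := by
    intro c
    obtain ⟨⟨a', ⟨s', hs'⟩⟩, h⟩ := IsLocalization.surj (nonZeroDivisors (A ⧸ 𝔭)) c
    obtain ⟨a, rfl⟩ := Ideal.Quotient.mk_surjective a'
    obtain ⟨s, rfl⟩ := Ideal.Quotient.mk_surjective s'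
    refine ⟨a, s, ?_, h⟩
    intro h0
    have : Ideal.Quotient.mk 𝔭 s = 0 := (map_eq_zero_iff _ hinjκ).mp h0
    exact nonZeroDivisors.ne_zero hs' this
  have hred₀ : ∀ x : B, x * x ∈ Ideal.map (algebraMap A B) (RingHom.ker f₀) →
      ∃ s : A, f₀ s ≠ 0 ∧
        algebraMap A B s * x ∈ Ideal.map (algebraMap A B) (RingHom.ker f₀) := by
    intro x hx2
    rw [hker₀] at hx2 ⊢
    obtain ⟨s, hs, hsx⟩ := hred x hx2
    exact ⟨s, fun h => hs ((hf₀ s).mp h), hsx⟩
  have hM₀ : ∀ a ∈ 𝔪.primeCompl, f₀ a ≠ 0 := fun a ha h => ha (h𝔭le ((hf₀ a).mp h))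
  have := discr_not_mem_map_ker_of_reduced 𝔪.primeCompl b f₀ hK₀ hred₀ hM₀
  rwa [hker₀, hmap] at this

end Discriminant

section Back

variable {A : Type*} (B : Type*) [CommRing A] [CommRing B] [IsDomain B]
  [Algebra A B] [FaithfulSMul A B] [IsDomain A] (𝔪 : Ideal A) [𝔪.IsPrime]

local notation "A₀" => Localization.AtPrime 𝔪
local notation "B₀" => Localization (Algebra.algebraMapSubmonoid B 𝔪.primeCompl)

variable {B}

omit [IsDomain B] [FaithfulSMul A B] [IsDomain A] in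
/-- A prime of `B` lying over `𝔪` is disjoint from the image of `A ∖ 𝔪`. -/
theorem disjoint_of_comap_eq (𝔫 : Ideal B) (hover : 𝔫.comap (algebraMap A B) = 𝔪) :
    Disjoint ((Algebra.algebraMapSubmonoid B 𝔪.primeCompl : Submonoid B) : Set B) (𝔫 : Set B) := by
  refine Set.disjoint_left.mpr ?_
  rintro _ ⟨a, ha, rfl⟩ ha𝔫
  exact ha (hover ▸ (Ideal.mem_comap.mpr ha𝔫))

omit [IsDomain B] [FaithfulSMul A B] [IsDomain A] in
theorem map_ne_top (𝔫 : Ideal B) (hover : 𝔫.comap (algebraMap A B) = 𝔪) :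
    𝔫.map (algebraMap B B₀) ≠ ⊤ :=
  (IsLocalization.map_algebraMap_ne_top_iff_disjoint
    (Algebra.algebraMapSubmonoid B 𝔪.primeCompl) B₀ 𝔫).mpr (disjoint_of_comap_eq 𝔪 𝔫 hover)

omit [IsDomain B] [FaithfulSMul A B] [IsDomain A] in
/-- `(𝔫 B₀) ∩ B = 𝔫` for a prime `𝔫` over `𝔪`. -/
theorem comap_map_eq (𝔫 : Ideal B) [h𝔫 : 𝔫.IsPrime] (hover : 𝔫.comap (algebraMap A B) = 𝔪) :
    (𝔫.map (algebraMap B B₀)).comap (algebraMap B B₀) = 𝔫 :=
  IsLocalization.under_map_of_isPrime_disjoint (Algebra.algebraMapSubmonoid B 𝔪.primeCompl) B₀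
    h𝔫 (disjoint_of_comap_eq 𝔪 𝔫 hover)

omit [IsDomain B] [FaithfulSMul A B] [IsDomain A] in
theorem isPrime_map (𝔫 : Ideal B) [h𝔫 : 𝔫.IsPrime] (hover : 𝔫.comap (algebraMap A B) = 𝔪) :
    (𝔫.map (algebraMap B B₀)).IsPrime :=
  IsLocalization.isPrime_of_isPrime_disjoint (Algebra.algebraMapSubmonoid B 𝔪.primeCompl) B₀ 𝔫
    h𝔫 (disjoint_of_comap_eq 𝔪 𝔫 hover)

omit [IsDomain B] [FaithfulSMul A B] [IsDomain A] in
theorem isMaximal_map (𝔫 : Ideal B) [h𝔫 : 𝔫.IsMaximal] (hover : 𝔫.comap (algebraMap A B) = 𝔪) :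
    (𝔫.map (algebraMap B B₀)).IsMaximal := by
  have h1 : ((𝔫.map (algebraMap B B₀)).under B).IsMaximal := by
    have : (𝔫.map (algebraMap B B₀)).under B = 𝔫 := comap_map_eq 𝔪 𝔫 hover
    rw [this]; exact h𝔫
  exact Ideal.IsMaximal.of_isLocalization_of_disjoint
    (Algebra.algebraMapSubmonoid B 𝔪.primeCompl)

/-- **(L6)** Back to the global ring: the element form (SM) for `𝔫 B₀` in `B₀` gives the
element form (SM) for `𝔫` in `B`. -/
theorem hSM_of_loc (𝔫 : Ideal B) [h𝔫 : 𝔫.IsPrime] (hover : 𝔫.comap (algebraMap A B) = 𝔪)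
    (π : B)
    (h : ∃ t₀ : B₀, t₀ ∈ 𝔫.map (algebraMap B B₀) ∧ ∀ y ∈ 𝔫.map (algebraMap B B₀),
      ∃ s : B₀, s ∉ 𝔫.map (algebraMap B B₀) ∧
        ∃ u v : B₀, s * y = algebraMap B B₀ π * u + t₀ * v) :
    ∃ t : B, t ∈ 𝔫 ∧ ∀ x ∈ 𝔫, ∃ s : B, s ∉ 𝔫 ∧ ∃ u v : B, s * x = π * u + t * v := by
  set M : Submonoid A := 𝔪.primeCompl with hM
  have hinjB : Function.Injective (algebraMap B B₀) := injective_top B 𝔪
  obtain ⟨t₀, ht₀, hSM⟩ := h
  obtain ⟨xt, at', hat, ht1⟩ := exists_mul_eq_algebraMap (B := B) M t₀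
  have hunit : ∀ {a : A}, a ∈ M → IsUnit (algebraMap A B₀ a) := fun ha =>
    isUnit_algebraMap_of_mem B M ha
  have hxt : xt ∈ 𝔫 := by
    rw [← comap_map_eq 𝔪 𝔫 hover, Ideal.mem_comap, ← ht1]
    exact Ideal.mul_mem_left _ _ ht₀
  refine ⟨xt, hxt, fun x hx => ?_⟩
  obtain ⟨s', hs', u', v', h⟩ := hSM _ (Ideal.mem_map_of_mem (algebraMap B B₀) hx)
  obtain ⟨xs, as, has, hs1⟩ := exists_mul_eq_algebraMap (B := B) M s'
  obtain ⟨xu, au, hau, hu1⟩ := exists_mul_eq_algebraMap (B := B) M u'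
  obtain ⟨xv, av, hav, hv1⟩ := exists_mul_eq_algebraMap (B := B) M v'
  refine ⟨algebraMap A B (au * av * at') * xs, ?_, algebraMap A B (as * av * at') * xu,
    algebraMap A B (as * au) * xv, ?_⟩
  · intro hmem
    have h1 : algebraMap B B₀ (algebraMap A B (au * av * at') * xs) ∈ 𝔫.map (algebraMap B B₀) :=
      Ideal.mem_map_of_mem _ hmem
    have h2 : algebraMap B B₀ (algebraMap A B (au * av * at') * xs)
        = algebraMap A B₀ (au * av * at' * as) * s' := by
      rw [map_mul, ← hs1, ← IsScalarTower.algebraMap_apply A B B₀,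
        map_mul (algebraMap A B₀) _ as]
      ring
    rw [h2] at h1
    exact hs' ((Ideal.unit_mul_mem_iff_mem _
      (hunit (M.mul_mem (M.mul_mem (M.mul_mem hau hav) hat) has))).mp h1)
  · apply hinjB
    simp only [map_mul, map_add, ← IsScalarTower.algebraMap_apply A B B₀]
    rw [← hs1, ← hu1, ← hv1, ← ht1]
    have h3 : algebraMap A B₀ au * algebraMap A B₀ av * algebraMap A B₀ at'
          * (algebraMap A B₀ as * s') * algebraMap B B₀ x
        = algebraMap A B₀ as * algebraMap A B₀ au * algebraMap A B₀ av * algebraMap A B₀ at'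
          * (s' * algebraMap B B₀ x) := by ring
    rw [h3, h]
    ring

end Back

end Fermat.Agent.S18x.CA.H25L
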